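/-
T1G (helper6), (G4) TG-LEVEL part 1: **the finite-level interface, generic in the function field**.

Generic version of helper9's `Lib/T1/Inst/Level.lean`: `F₀ ⊆ ℚ((q))` a field of Laurent series
containing `j`, `Fb ⊆ κ((q))` a field containing `j̄` (`κ` the residue field of a place `𝔓` of `ℚ̄`);
for a finite-index subgroup `H` of the inertia group, `L = ℚ̄^H`, `O = 𝔓 ∩ L` (a DVR), and
`TglLevelOK 𝔓 F₀ Fb hj hjb H` collects what the good-reduction package gives for the function field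
`L · F₀ ⊆ L((q))` with its Gauss valuation and residue field `Fb`.
In the application `F₀ = tgOneQ M`, `Fb = TgOne κ M ζ̄`.
-/
import Fermat.Agent.Lib.T1.Inst.LevelUp

set_option autoImplicit false
set_option linter.style.haveILetI false
set_option linter.unusedSectionVars false
set_option synthInstance.maxHeartbeats 400000

open HahnSeries ModularCurve Fermat.Agent.TW Fermat.Agent.S05Lib Fermat.Agent.T1

noncomputable section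

namespace Fermat.Agent.T1G

local notation "Qb" => AlgebraicClosure ℚ

/-- `j ∈ L · F₀` if `j ∈ F₀` -/
theorem tgl_jq_mem (L : Type*) [Field L] [Algebra ℚ L] {F₀ : IntermediateField ℚ (LaurentSeries ℚ)}
    (hj : jq ∈ F₀) : jqModC L ∈ laurentBaseChange L F₀ := by
  have h := coeffEmb_mem_laurentBaseChange L hj
  rwa [coeffEmb, ← jqModC_rat, coeffMap_jqModC] at h

variable (𝔓 : FFPlace) (F₀ : IntermediateField ℚ (LaurentSeries ℚ))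
  (Fb : IntermediateField (IsLocalRing.ResidueField ↥𝔓.P)
    (LaurentSeries (IsLocalRing.ResidueField ↥𝔓.P)))
  (hj : jq ∈ F₀) (hjb : jqModC (IsLocalRing.ResidueField ↥𝔓.P) ∈ Fb) (H : Subgroup 𝔓.I)

/-- the function field over `L_H` -/
abbrev tglLevF : IntermediateField ↥(tbFix 𝔓 H) (LaurentSeries ↥(tbFix 𝔓 H)) :=
  laurentBaseChange ↥(tbFix 𝔓 H) F₀

/-- `j` at level `H` -/
def tglLevJ : ↥(tglLevF 𝔓 F₀ H) := ⟨jqModC ↥(tbFix 𝔓 H), tgl_jq_mem _ hj⟩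

/-- `j̄` -/
def tglBarJ : ↥Fb := ⟨jqModC (IsLocalRing.ResidueField ↥𝔓.P), hjb⟩

/-- `j` over `ℚ̄` -/
def tglJ : ↥(laurentBaseChange Qb F₀) := ⟨jqModC Qb, tgl_jq_mem _ hj⟩

theorem coe_tglJ : ((tglJ F₀ hj : ↥(laurentBaseChange Qb F₀)) : LaurentSeries Qb) = jqModC Qb := rfl

set_option maxHeartbeats 1600000 in
/-- what the good reduction package gives at the finite level `H` -/
structure TglLevelOK : Prop where
  /-- Gauss normal form -/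
  nf : ∀ f : LaurentSeries ↥(tbFix 𝔓 H), f ∈ tglLevF 𝔓 F₀ H → f ≠ 0 →
    ∃ (c : ↥(tbFix 𝔓 H)) (a b : LaurentSeries ↥(tbFixO 𝔓 H)), c ≠ 0 ∧
      tbInc (tbFixO 𝔓 H) a ∈ tglLevF 𝔓 F₀ H ∧ tbInc (tbFixO 𝔓 H) b ∈ tglLevF 𝔓 F₀ H ∧
      tbRed (tbFixRes 𝔓 H) a ≠ 0 ∧ tbRed (tbFixRes 𝔓 H) b ≠ 0 ∧
      f * tbInc (tbFixO 𝔓 H) b = HahnSeries.C c * tbInc (tbFixO 𝔓 H) a
  /-- (A1), first half: reductions land in `Fb` -/
  range : ∀ f : LaurentSeries ↥(tbFix 𝔓 H), f ∈ tglLevF 𝔓 F₀ H →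
    TbGauss (tbFixO 𝔓 H) (tbFixRes 𝔓 H) f →
    tbRhoFun (tbFixO 𝔓 H) (tbFixRes 𝔓 H) f ∈ Fb
  /-- (A1), second half: every element of `Fb` is a reduction -/
  surj : ∀ t : LaurentSeries (IsLocalRing.ResidueField ↥𝔓.P), t ∈ Fb →
    ∃ f : LaurentSeries ↥(tbFix 𝔓 H), f ∈ tglLevF 𝔓 F₀ H ∧
      TbGauss (tbFixO 𝔓 H) (tbFixRes 𝔓 H) f ∧ tbRhoFun (tbFixO 𝔓 H) (tbFixRes 𝔓 H) f = t
  /-- (A4): orthonormal bases -/
  cart : ∀ W : Submodule ↥(tbFix 𝔓 H) ↥(tglLevF 𝔓 F₀ H), FiniteDimensional ↥(tbFix 𝔓 H) ↥W →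
    ∃ (n : ℕ) (b : Fin n → ↥(tglLevF 𝔓 F₀ H)),
      (∀ i, TbGauss (tbFixO 𝔓 H) (tbFixRes 𝔓 H) (b i : LaurentSeries ↥(tbFix 𝔓 H))) ∧
      Submodule.span ↥(tbFix 𝔓 H) (Set.range b) = W ∧
      LinearIndependent (IsLocalRing.ResidueField ↥𝔓.P)
        (fun i => tbRhoFun (tbFixO 𝔓 H) (tbFixRes 𝔓 H) (b i : LaurentSeries ↥(tbFix 𝔓 H)))
  /-- (A3) at the finite part -/
  int1 : ∀ (f : ↥(tglLevF 𝔓 F₀ H))
    (hf : TbGauss (tbFixO 𝔓 H) (tbFixRes 𝔓 H) (f : LaurentSeries ↥(tbFix 𝔓 H))),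
    IsIntegral ↥(Algebra.adjoin ↥(tbFix 𝔓 H) {tglLevJ 𝔓 F₀ hj H}) f →
    IsIntegral ↥(Algebra.adjoin (IsLocalRing.ResidueField ↥𝔓.P) {tglBarJ 𝔓 Fb hjb})
      (⟨tbRhoFun (tbFixO 𝔓 H) (tbFixRes 𝔓 H) (f : LaurentSeries ↥(tbFix 𝔓 H)),
        range _ f.2 hf⟩ : ↥Fb)
  /-- (A3) at infinity -/
  int2 : ∀ (f : ↥(tglLevF 𝔓 F₀ H))
    (hf : TbGauss (tbFixO 𝔓 H) (tbFixRes 𝔓 H) (f : LaurentSeries ↥(tbFix 𝔓 H))),
    IsIntegral ↥(Algebra.adjoin ↥(tbFix 𝔓 H) {(tglLevJ 𝔓 F₀ hj H)⁻¹}) f →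
    IsIntegral ↥(Algebra.adjoin (IsLocalRing.ResidueField ↥𝔓.P) {(tglBarJ 𝔓 Fb hjb)⁻¹})
      (⟨tbRhoFun (tbFixO 𝔓 H) (tbFixRes 𝔓 H) (f : LaurentSeries ↥(tbFix 𝔓 H)),
        range _ f.2 hf⟩ : ↥Fb)

end Fermat.Agent.T1G
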