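/-
T1G (helper6), (G4) TG-LEVEL part 2: **from the finite levels `(L_H, O_H)` to `(ℚ̄, A = 𝔓)`**,
generic in the function field `F₀` (port of helper9's `Lib/T1/Inst/{LevelUp, CartUp, IntUp}.lean`):

* `tgl_gauss_descend`: a function of level `H` which is Gauss over `A` is Gauss over `O_H`;
* `tgl_range`: reductions of Gauss functions of `ℚ̄ · F₀` lie in `Fb`;
* `tgl_normalForm`: the Gauss normal form over `(ℚ̄, A)`;
* `tgl_cart`: (Cart) over `(ℚ̄, A)`;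
* `tgl_int1`, `tgl_int2`: (Int) over `(ℚ̄, A)`;
* `tgl_surj`: every element of `Fb` is a reduction.
-/
import Fermat.Agent.Lib.T1G.Level.Defs
import Fermat.Agent.Lib.T1.Inst.IntUp

set_option autoImplicit false
set_option linter.style.haveILetI false
set_option linter.unusedSectionVars false
set_option synthInstance.maxHeartbeats 400000

open HahnSeries ModularCurve Fermat.Agent.TW Fermat.Agent.S05Lib Fermat.Agent.T1 Polynomial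

noncomputable section

namespace Fermat.Agent.T1G

local notation "Qb" => AlgebraicClosure ℚ

/-- the Gauss normal form of an element of `ℚ̄ · F₀` -/
def TglNormal (F₀ : IntermediateField ℚ (LaurentSeries ℚ)) (A : ValuationSubring Qb)
    (Fb : IntermediateField (IsLocalRing.ResidueField ↥A)
      (LaurentSeries (IsLocalRing.ResidueField ↥A)))
    (f : ↥(laurentBaseChange Qb F₀)) (c : Qb) (a b : LaurentSeries ↥A) : Prop :=
  c ≠ 0 ∧ coeffMap A.subtype a ∈ laurentBaseChange Qb F₀ ∧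
    coeffMap A.subtype b ∈ laurentBaseChange Qb F₀ ∧
    coeffMap (IsLocalRing.residue ↥A) a ∈ Fb ∧ coeffMap (IsLocalRing.residue ↥A) b ∈ Fb ∧
    coeffMap (IsLocalRing.residue ↥A) a ≠ 0 ∧ coeffMap (IsLocalRing.residue ↥A) b ≠ 0 ∧
    (f : LaurentSeries Qb) * coeffMap A.subtype b =
      algebraMap Qb (LaurentSeries Qb) c * coeffMap A.subtype a

variable {𝔓 : FFPlace} {F₀ : IntermediateField ℚ (LaurentSeries ℚ)}
  {Fb : IntermediateField (IsLocalRing.ResidueField ↥𝔓.P)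
    (LaurentSeries (IsLocalRing.ResidueField ↥𝔓.P))}
  {hj : jq ∈ F₀} {hjb : jqModC (IsLocalRing.ResidueField ↥𝔓.P) ∈ Fb}

theorem tglPhi_mem (H : Subgroup 𝔓.I) {f : LaurentSeries ↥(tbFix 𝔓 H)}
    (hf : f ∈ tglLevF 𝔓 F₀ H) : tbPhi 𝔓 H f ∈ laurentBaseChange Qb F₀ :=
  tbd_coeffMap_mem F₀ hf

/-- a function of level `H` which is Gauss over `A` is Gauss over `O_H` -/
theorem tgl_gauss_descend {H : Subgroup 𝔓.I} (hOK : TglLevelOK 𝔓 F₀ Fb hj hjb H)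
    {f : LaurentSeries ↥(tbFix 𝔓 H)} (hf : f ∈ tglLevF 𝔓 F₀ H)
    (hg : TbGauss 𝔓.P (IsLocalRing.residue ↥𝔓.P) (tbPhi 𝔓 H f)) :
    TbGauss (tbFixO 𝔓 H) (tbFixRes 𝔓 H) f := by
  rcases eq_or_ne f 0 with rfl | hf0
  · exact (tbGaussSubring _ _).zero_mem
  obtain ⟨c, a, b, hc, haF, hbF, ha0, hb0, hrel⟩ := hOK.nf f hf hf0
  by_cases hcO : c ∈ tbFixO 𝔓 H
  · refine ⟨HahnSeries.C ⟨c, hcO⟩ * a, b, hb0, ?_⟩
    rw [hrel, map_mul, tbInc_C]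
  · exfalso
    have hci : c⁻¹ ∈ tbFixO 𝔓 H := ((tbFixO 𝔓 H).mem_or_inv_mem c).resolve_left hcO
    have hcinv : (c⁻¹)⁻¹ ∉ tbFixO 𝔓 H := by rwa [inv_inv]
    have hres : tbFixRes 𝔓 H ⟨c⁻¹, hci⟩ = 0 := tbFixRes_eq_zero_of_inv_notMem 𝔓 H hcinv hci
    obtain ⟨g, h, hh, e⟩ := hg
    have key : HahnSeries.C (tbFixIncl 𝔓 H ⟨c⁻¹, hci⟩) * g * coeffMap (tbFixIncl 𝔓 H) b =
        coeffMap (tbFixIncl 𝔓 H) a * h := by
      apply tbInc_injective 𝔓.P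
      rw [map_mul, map_mul, map_mul, tbPhi_inc, tbPhi_inc, tbInc_C, ← e]
      have h1 : tbPhi 𝔓 H f * tbPhi 𝔓 H (tbInc (tbFixO 𝔓 H) b) =
          HahnSeries.C (c : Qb) * tbPhi 𝔓 H (tbInc (tbFixO 𝔓 H) a) := by
        rw [← map_mul, hrel, map_mul, tbPhi_C]
      have h2 : ((tbFixIncl 𝔓 H ⟨c⁻¹, hci⟩ : ↥𝔓.P) : Qb) = (c : Qb)⁻¹ := by
        rw [tbFixIncl_coe]
        exact map_inv₀ _ _
      have hc' : (HahnSeries.C (c : Qb) : LaurentSeries Qb) ≠ 0 := by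
        rw [Ne, map_eq_zero]
        exact fun h0 => hc (Subtype.ext h0)
      rw [h2, map_inv₀]
      have h3 : (HahnSeries.C (c : Qb) : LaurentSeries Qb)⁻¹ *
          (tbPhi 𝔓 H f * tbInc 𝔓.P h) * tbPhi 𝔓 H (tbInc (tbFixO 𝔓 H) b) =
          (HahnSeries.C (c : Qb) : LaurentSeries Qb)⁻¹ *
            (tbPhi 𝔓 H f * tbPhi 𝔓 H (tbInc (tbFixO 𝔓 H) b)) * tbInc 𝔓.P h := by ring
      rw [h3, h1]
      field_simp
    have key2 := congrArg (tbRed (IsLocalRing.residue ↥𝔓.P)) key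
    rw [map_mul, map_mul, map_mul, tbRed_C, tbFixRes_eq, hres, map_zero, zero_mul, zero_mul,
      tbPhi_red] at key2
    exact mul_ne_zero ha0 hh key2.symm

/-- **reductions of functions of `ℚ̄ · F₀` lie in `Fb`** -/
theorem tgl_range (hOK : ∀ H : Subgroup 𝔓.I, H.FiniteIndex → TglLevelOK 𝔓 F₀ Fb hj hjb H)
    {f : LaurentSeries Qb} (hf : f ∈ laurentBaseChange Qb F₀)
    (hg : TbGauss 𝔓.P (IsLocalRing.residue ↥𝔓.P) f) :
    tbRhoFun 𝔓.P (IsLocalRing.residue ↥𝔓.P) f ∈ Fb := by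
  obtain ⟨H, hH, -, hT⟩ := tbd_exists_level F₀ 𝔓
    ({()} : Finset Unit) (fun _ => f) (fun _ _ => hf) ∅
  obtain ⟨fH, hfH, rfl⟩ := hT () (Finset.mem_singleton_self _)
  have hgH := tgl_gauss_descend (hOK H hH) hfH hg
  rw [tbPhi_rho 𝔓 H hgH]
  exact (hOK H hH).range fH hfH hgH

/-- **every element of `Fb` is a reduction** -/
theorem tgl_surj (hOK : ∀ H : Subgroup 𝔓.I, H.FiniteIndex → TglLevelOK 𝔓 F₀ Fb hj hjb H)
    {t : LaurentSeries (IsLocalRing.ResidueField ↥𝔓.P)} (ht : t ∈ Fb) :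
    ∃ f : LaurentSeries Qb, f ∈ laurentBaseChange Qb F₀ ∧
      TbGauss 𝔓.P (IsLocalRing.residue ↥𝔓.P) f ∧
      tbRhoFun 𝔓.P (IsLocalRing.residue ↥𝔓.P) f = t := by
  haveI : (⊤ : Subgroup 𝔓.I).FiniteIndex := inferInstance
  obtain ⟨f, hf, hG, hρ⟩ := (hOK ⊤ inferInstance).surj t ht
  exact ⟨tbPhi 𝔓 ⊤ f, tglPhi_mem ⊤ hf, tbPhi_gauss 𝔓 ⊤ hG, by rw [tbPhi_rho 𝔓 ⊤ hG, hρ]⟩

/-- **the Gauss normal form over `(ℚ̄, A)`** -/
theorem tgl_normalForm (hOK : ∀ H : Subgroup 𝔓.I, H.FiniteIndex → TglLevelOK 𝔓 F₀ Fb hj hjb H)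
    (f : ↥(laurentBaseChange Qb F₀)) (hf0 : f ≠ 0) :
    ∃ (c : Qb) (a b : LaurentSeries ↥𝔓.P), TglNormal F₀ 𝔓.P Fb f c a b := by
  obtain ⟨H, hH, -, hT⟩ := tbd_exists_level F₀ 𝔓
    ({()} : Finset Unit) (fun _ => (f : LaurentSeries Qb)) (fun _ _ => f.2) ∅
  obtain ⟨fH, hfH, hfHf⟩ := hT () (Finset.mem_singleton_self _)
  have hfH0 : fH ≠ 0 := by
    rintro rfl
    rw [map_zero] at hfHf
    exact hf0 (Subtype.ext hfHf.symm)
  obtain ⟨c, a, b, hc, haF, hbF, ha0, hb0, hrel⟩ := (hOK H hH).nf fH hfH hfH0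
  have hra : tbRed (IsLocalRing.residue ↥𝔓.P) (coeffMap (tbFixIncl 𝔓 H) a) ∈ Fb := by
    rw [tbPhi_red, ← tbRho_inc (tbFixO 𝔓 H) (tbFixRes 𝔓 H) a]
    exact (hOK H hH).range _ haF (tbGauss_inc _ _ a)
  have hrb : tbRed (IsLocalRing.residue ↥𝔓.P) (coeffMap (tbFixIncl 𝔓 H) b) ∈ Fb := by
    rw [tbPhi_red, ← tbRho_inc (tbFixO 𝔓 H) (tbFixRes 𝔓 H) b]
    exact (hOK H hH).range _ hbF (tbGauss_inc _ _ b)
  refine ⟨(c : Qb), coeffMap (tbFixIncl 𝔓 H) a, coeffMap (tbFixIncl 𝔓 H) b,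
    fun h0 => hc (Subtype.ext h0), ?_, ?_, hra, hrb, ?_, ?_, ?_⟩
  · show tbInc 𝔓.P _ ∈ _
    rw [tbPhi_inc]
    exact tglPhi_mem H haF
  · show tbInc 𝔓.P _ ∈ _
    rw [tbPhi_inc]
    exact tglPhi_mem H hbF
  · show tbRed (IsLocalRing.residue ↥𝔓.P) _ ≠ 0
    rwa [tbPhi_red]
  · show tbRed (IsLocalRing.residue ↥𝔓.P) _ ≠ 0
    rwa [tbPhi_red]
  · show (f : LaurentSeries Qb) * tbInc 𝔓.P _ = _ * tbInc 𝔓.P _
    rw [tbPhi_inc, tbPhi_inc, ← hfHf, ← map_mul, hrel, map_mul, tbPhi_C,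
      algebraMap_laurentSeries_eq_single, HahnSeries.C_apply]

end Fermat.Agent.T1G
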