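/-
T1G (helper6), (G4) TG-LEVEL part 3: **(Cart) and (Int) over `(ℚ̄, A)`**, generic in the function
field `F₀` (port of helper9's `Lib/T1/Inst/{CartUp, IntUp}.lean`).
-/
import Fermat.Agent.Lib.T1G.Level.Up

set_option autoImplicit false
set_option linter.style.haveILetI false
set_option linter.unusedSectionVars false
set_option synthInstance.maxHeartbeats 400000

open HahnSeries ModularCurve Fermat.Agent.TW Fermat.Agent.S05Lib Fermat.Agent.T1 Polynomial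

noncomputable section

namespace Fermat.Agent.T1G

local notation "Qb" => AlgebraicClosure ℚ

variable (𝔓 : FFPlace) (F₀ : IntermediateField ℚ (LaurentSeries ℚ))
  (Fb : IntermediateField (IsLocalRing.ResidueField ↥𝔓.P)
    (LaurentSeries (IsLocalRing.ResidueField ↥𝔓.P)))
  (hj : jq ∈ F₀) (hjb : jqModC (IsLocalRing.ResidueField ↥𝔓.P) ∈ Fb) (H : Subgroup 𝔓.I)

/-- the map `L_H · F₀ → ℚ̄ · F₀` -/
def tglPhiF : ↥(tglLevF 𝔓 F₀ H) →+* ↥(laurentBaseChange Qb F₀) :=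
  ((tbPhi 𝔓 H).comp (tglLevF 𝔓 F₀ H).val.toRingHom).codRestrict
    (laurentBaseChange Qb F₀).toSubring (fun f => tglPhi_mem H f.2)

theorem coe_tglPhiF (f : ↥(tglLevF 𝔓 F₀ H)) :
    ((tglPhiF 𝔓 F₀ H f : ↥(laurentBaseChange Qb F₀)) : LaurentSeries Qb) =
      tbPhi 𝔓 H (f : LaurentSeries ↥(tbFix 𝔓 H)) := rfl

theorem tglPhiF_injective : Function.Injective (tglPhiF 𝔓 F₀ H) := by
  intro f g h
  apply Subtype.ext
  apply tbPhi_injective 𝔓 H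
  have := congrArg (Subtype.val : ↥(laurentBaseChange Qb F₀) → LaurentSeries Qb) h
  exact this

theorem tglPhiF_smul (l : ↥(tbFix 𝔓 H)) (f : ↥(tglLevF 𝔓 F₀ H)) :
    tglPhiF 𝔓 F₀ H (l • f) = (l : Qb) • tglPhiF 𝔓 F₀ H f := by
  apply Subtype.ext
  rw [coe_tglPhiF, tbq_coe_smul, tbq_coe_smul, map_mul, tbPhi_C, coe_tglPhiF]

/-- spans go up -/
theorem tglPhiF_mem_span {ι : Type*} (w : ι → ↥(tglLevF 𝔓 F₀ H)) {x : ↥(tglLevF 𝔓 F₀ H)}
    (hx : x ∈ Submodule.span ↥(tbFix 𝔓 H) (Set.range w)) :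
    tglPhiF 𝔓 F₀ H x ∈ Submodule.span Qb (Set.range fun i => tglPhiF 𝔓 F₀ H (w i)) := by
  induction hx using Submodule.span_induction with
  | mem y hy =>
    obtain ⟨i, rfl⟩ := hy
    exact Submodule.subset_span ⟨i, rfl⟩
  | zero => rw [map_zero]; exact Submodule.zero_mem _
  | add x y _ _ hx hy => rw [map_add]; exact Submodule.add_mem _ hx hy
  | smul l x _ hx => rw [tglPhiF_smul]; exact Submodule.smul_mem _ _ hx

theorem tglPhiF_algebraMap (l : ↥(tbFix 𝔓 H)) :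
    tglPhiF 𝔓 F₀ H (algebraMap ↥(tbFix 𝔓 H) ↥(tglLevF 𝔓 F₀ H) l) =
      algebraMap Qb ↥(laurentBaseChange Qb F₀) (l : Qb) := by
  have h1 := tglPhiF_smul 𝔓 F₀ H l 1
  rw [Algebra.smul_def, mul_one, map_one, Algebra.smul_def, mul_one] at h1
  exact h1

theorem tglPhiF_aeval (y : ↥(tglLevF 𝔓 F₀ H)) (p : (↥(tbFix 𝔓 H))[X]) :
    tglPhiF 𝔓 F₀ H (Polynomial.aeval y p) =
      Polynomial.aeval (tglPhiF 𝔓 F₀ H y) (p.map (algebraMap ↥(tbFix 𝔓 H) Qb)) := by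
  rw [Polynomial.aeval_def, Polynomial.aeval_def, Polynomial.hom_eval₂, Polynomial.eval₂_map]
  congr 1
  apply RingHom.ext
  intro l
  exact tglPhiF_algebraMap 𝔓 F₀ H l

theorem tglPhiF_tglLevJ : tglPhiF 𝔓 F₀ H (tglLevJ 𝔓 F₀ hj H) = tglJ F₀ hj := by
  apply Subtype.ext
  rw [coe_tglPhiF]
  exact coeffMap_jqModC _

variable {𝔓 F₀ Fb hj hjb}

set_option maxHeartbeats 1600000 in
/-- **(Cart) over `(ℚ̄, A)`** -/
theorem tgl_cart (hOK : ∀ H : Subgroup 𝔓.I, H.FiniteIndex → TglLevelOK 𝔓 F₀ Fb hj hjb H)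
    (W : Submodule Qb ↥(laurentBaseChange Qb F₀)) [FiniteDimensional Qb ↥W] :
    ∃ S : Finset ↥(laurentBaseChange Qb F₀),
      (∀ s ∈ S, s ∈ W ∧ TbGauss 𝔓.P (IsLocalRing.residue ↥𝔓.P) (s : LaurentSeries Qb)) ∧
      ∀ f ∈ W, TbGauss 𝔓.P (IsLocalRing.residue ↥𝔓.P) (f : LaurentSeries Qb) →
        ∃ c : ↥(laurentBaseChange Qb F₀) → ↥𝔓.P, f = ∑ s ∈ S, ((c s : ↥𝔓.P) : Qb) • s := by
  classical
  set wb := Module.finBasis Qb ↥W with hwb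
  set n0 := Module.finrank Qb ↥W with hn0
  -- descend the basis
  obtain ⟨H, hH, -, hT⟩ := tbd_exists_level F₀ 𝔓
    (Finset.univ : Finset (Fin n0))
    (fun i => (((wb i : ↥W) : ↥(laurentBaseChange Qb F₀)) : LaurentSeries Qb))
    (fun i _ => ((wb i : ↥W) : ↥(laurentBaseChange Qb F₀)).2) ∅
  choose w' hw'F hw' using fun i => hT i (Finset.mem_univ i)
  set wH : Fin n0 → ↥(tglLevF 𝔓 F₀ H) := fun i => ⟨w' i, hw'F i⟩ with hwH
  have hwHw : ∀ i, tglPhiF 𝔓 F₀ H (wH i) = ((wb i : ↥W) : ↥(laurentBaseChange Qb F₀)) :=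
    fun i => Subtype.ext (hw' i)
  set WH : Submodule ↥(tbFix 𝔓 H) ↥(tglLevF 𝔓 F₀ H) :=
    Submodule.span ↥(tbFix 𝔓 H) (Set.range wH) with hWH
  haveI : FiniteDimensional ↥(tbFix 𝔓 H) ↥WH :=
    FiniteDimensional.span_of_finite _ (Set.finite_range wH)
  obtain ⟨n, b, hbG, hspan, hind⟩ := (hOK H hH).cart WH inferInstance
  set B : Fin n → ↥(laurentBaseChange Qb F₀) := fun i => tglPhiF 𝔓 F₀ H (b i) with hB
  have hBG : ∀ i, TbGauss 𝔓.P (IsLocalRing.residue ↥𝔓.P) ((B i : ↥(laurentBaseChange Qb F₀)) :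
      LaurentSeries Qb) := fun i => tbPhi_gauss 𝔓 H (hbG i)
  have hBrho : ∀ i, tbRhoFun 𝔓.P (IsLocalRing.residue ↥𝔓.P)
      ((B i : ↥(laurentBaseChange Qb F₀)) : LaurentSeries Qb) =
      tbRhoFun (tbFixO 𝔓 H) (tbFixRes 𝔓 H) (b i : LaurentSeries ↥(tbFix 𝔓 H)) :=
    fun i => tbPhi_rho 𝔓 H (hbG i)
  have hBind : LinearIndependent (IsLocalRing.ResidueField ↥𝔓.P)
      (fun i => tbRhoFun 𝔓.P (IsLocalRing.residue ↥𝔓.P)
        ((B i : ↥(laurentBaseChange Qb F₀)) : LaurentSeries Qb)) := by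
    have : (fun i => tbRhoFun 𝔓.P (IsLocalRing.residue ↥𝔓.P)
        ((B i : ↥(laurentBaseChange Qb F₀)) : LaurentSeries Qb)) =
        fun i => tbRhoFun (tbFixO 𝔓 H) (tbFixRes 𝔓 H) (b i : LaurentSeries ↥(tbFix 𝔓 H)) :=
      funext hBrho
    rw [this]
    exact hind
  have hBinj : Function.Injective B := by
    intro i j hij
    apply hBind.injective
    show tbRhoFun 𝔓.P _ _ = tbRhoFun 𝔓.P _ _
    rw [hij]
  -- `B i ∈ W`
  have hBW : ∀ i, B i ∈ W := by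
    intro i
    have h1 : b i ∈ Submodule.span ↥(tbFix 𝔓 H) (Set.range wH) := by
      rw [← hWH, ← hspan]
      exact Submodule.subset_span ⟨i, rfl⟩
    have h2 := tglPhiF_mem_span 𝔓 F₀ H wH h1
    refine (Submodule.span_le.mpr ?_) h2
    rintro _ ⟨j, rfl⟩
    show tglPhiF 𝔓 F₀ H (wH j) ∈ W
    rw [hwHw]
    exact (wb j).2
  -- `W ⊆ span B`
  have hWB : ∀ f ∈ W, f ∈ Submodule.span Qb (Set.range B) := by
    intro f hf
    have h1 : (⟨f, hf⟩ : ↥W) = ∑ i, wb.repr ⟨f, hf⟩ i • wb i := (wb.sum_repr ⟨f, hf⟩).symm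
    have h2 : f = ∑ i, wb.repr ⟨f, hf⟩ i • ((wb i : ↥W) : ↥(laurentBaseChange Qb F₀)) := by
      have := congrArg (Subtype.val : ↥W → ↥(laurentBaseChange Qb F₀)) h1
      rw [AddSubmonoidClass.coe_finsetSum] at this
      exact this
    rw [h2]
    refine Submodule.sum_mem _ fun i _ => Submodule.smul_mem _ _ ?_
    rw [← hwHw]
    have h3 : wH i ∈ Submodule.span ↥(tbFix 𝔓 H) (Set.range b) := by
      rw [hspan, hWH]
      exact Submodule.subset_span ⟨i, rfl⟩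
    exact tglPhiF_mem_span 𝔓 F₀ H b h3
  refine ⟨Finset.univ.image B, ?_, ?_⟩
  · intro s hs
    obtain ⟨i, -, rfl⟩ := Finset.mem_image.mp hs
    exact ⟨hBW i, hBG i⟩
  · intro f hfW hfG
    obtain ⟨c, hc⟩ := (Submodule.mem_span_range_iff_exists_fun Qb).mp (hWB f hfW)
    have hfsum : (f : LaurentSeries Qb) = ∑ i, HahnSeries.C (c i) *
        ((B i : ↥(laurentBaseChange Qb F₀)) : LaurentSeries Qb) := by
      rw [← hc, AddSubmonoidClass.coe_finsetSum]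
      refine Finset.sum_congr rfl fun i _ => ?_
      rw [tbq_coe_smul]
    have hcA : ∀ i, c i ∈ 𝔓.P := by
      refine tbq_orthonormal 𝔓.P (fun i => ((B i : ↥(laurentBaseChange Qb F₀)) :
        LaurentSeries Qb)) hBG hBind c ?_
      rw [← hfsum]
      exact hfG
    set ct : ↥(laurentBaseChange Qb F₀) → ↥𝔓.P :=
      fun s => if h : ∃ i, B i = s then ⟨c h.choose, hcA _⟩ else 0 with hct
    have hctB : ∀ i, ct (B i) = ⟨c i, hcA i⟩ := by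
      intro i
      have hex : ∃ j, B j = B i := ⟨i, rfl⟩
      have h1 : ct (B i) = ⟨c hex.choose, hcA _⟩ := dif_pos hex
      have h2 : hex.choose = i := hBinj hex.choose_spec
      rw [h1]
      exact Subtype.ext (congrArg c h2)
    refine ⟨ct, ?_⟩
    rw [Finset.sum_image (fun i _ j _ hij => hBinj hij), ← hc]
    refine Finset.sum_congr rfl fun i _ => ?_
    rw [hctB i]

/-- descent of an integrality relation to a finite level -/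
theorem tgl_exists_level_isIntegral (x f : ↥(laurentBaseChange Qb F₀))
    (hint : IsIntegral ↥(Algebra.adjoin Qb {x}) f) :
    ∃ H : Subgroup 𝔓.I, H.FiniteIndex ∧ ∃ fH : ↥(tglLevF 𝔓 F₀ H), tglPhiF 𝔓 F₀ H fH = f ∧
      ∀ xH : ↥(tglLevF 𝔓 F₀ H), tglPhiF 𝔓 F₀ H xH = x →
        IsIntegral ↥(Algebra.adjoin ↥(tbFix 𝔓 H) {xH}) fH := by
  classical
  obtain ⟨n, q, hrel⟩ := (tbq_isIntegral_adjoin_iff x f).mp hint
  obtain ⟨H, hH, hS, hT⟩ := tbd_exists_level F₀ 𝔓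
    ({()} : Finset Unit) (fun _ => (f : LaurentSeries Qb)) (fun _ _ => f.2)
    (Finset.univ.biUnion fun i => (q i).coeffs)
  obtain ⟨fH', hfH', hfHf⟩ := hT () (Finset.mem_singleton_self _)
  refine ⟨H, hH, ⟨fH', hfH'⟩, Subtype.ext hfHf, fun xH hxH => ?_⟩
  have hlift : ∀ i, ∃ q' : (↥(tbFix 𝔓 H))[X], q'.map (algebraMap ↥(tbFix 𝔓 H) Qb) = q i := by
    intro i
    rw [← Polynomial.mem_lifts, Polynomial.lifts_iff_coeffs_subset_range]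
    intro a ha
    have : a ∈ tbFix 𝔓 H := hS a (Finset.mem_biUnion.mpr ⟨i, Finset.mem_univ _, ha⟩)
    exact ⟨⟨a, this⟩, rfl⟩
  choose q' hq' using hlift
  rw [tbq_isIntegral_adjoin_iff]
  refine ⟨n, q', ?_⟩
  apply tglPhiF_injective 𝔓 F₀ H
  rw [map_zero, map_add, map_pow, map_sum, ← hrel]
  have hf' : tglPhiF 𝔓 F₀ H ⟨fH', hfH'⟩ = f := Subtype.ext hfHf
  rw [hf']
  congr 1
  refine Finset.sum_congr rfl fun i _ => ?_
  rw [map_mul, map_pow, tglPhiF_aeval, hq', hxH, hf']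

/-- **(Int) at the finite part, over `(ℚ̄, A)`** -/
theorem tgl_int1 (hOK : ∀ H : Subgroup 𝔓.I, H.FiniteIndex → TglLevelOK 𝔓 F₀ Fb hj hjb H)
    (f : ↥(laurentBaseChange Qb F₀))
    (hf : TbGauss 𝔓.P (IsLocalRing.residue ↥𝔓.P) (f : LaurentSeries Qb))
    (hint : IsIntegral ↥(Algebra.adjoin Qb {tglJ F₀ hj}) f) :
    IsIntegral ↥(Algebra.adjoin (IsLocalRing.ResidueField ↥𝔓.P) {tglBarJ 𝔓 Fb hjb})
      (⟨tbRhoFun 𝔓.P (IsLocalRing.residue ↥𝔓.P) (f : LaurentSeries Qb),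
        tgl_range hOK f.2 hf⟩ : ↥Fb) := by
  obtain ⟨H, hH, fH, hfH, hint'⟩ := tgl_exists_level_isIntegral (𝔓 := 𝔓) (tglJ F₀ hj) f hint
  have hfH' : tbPhi 𝔓 H (fH : LaurentSeries ↥(tbFix 𝔓 H)) = (f : LaurentSeries Qb) := by
    rw [← coe_tglPhiF, hfH]
  have hg : TbGauss (tbFixO 𝔓 H) (tbFixRes 𝔓 H) (fH : LaurentSeries ↥(tbFix 𝔓 H)) :=
    tgl_gauss_descend (hOK H hH) fH.2 (by rw [hfH']; exact hf)
  have h1 := (hOK H hH).int1 fH hg (hint' _ (tglPhiF_tglLevJ 𝔓 F₀ hj H))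
  have h2 : (⟨tbRhoFun 𝔓.P (IsLocalRing.residue ↥𝔓.P) (f : LaurentSeries Qb),
      tgl_range hOK f.2 hf⟩ : ↥Fb) =
      ⟨tbRhoFun (tbFixO 𝔓 H) (tbFixRes 𝔓 H) (fH : LaurentSeries ↥(tbFix 𝔓 H)),
        (hOK H hH).range _ fH.2 hg⟩ := by
    apply Subtype.ext
    show tbRhoFun 𝔓.P _ _ = tbRhoFun (tbFixO 𝔓 H) _ _
    rw [← hfH', tbPhi_rho 𝔓 H hg]
  rw [h2]
  exact h1

/-- **(Int) at infinity, over `(ℚ̄, A)`** -/
theorem tgl_int2 (hOK : ∀ H : Subgroup 𝔓.I, H.FiniteIndex → TglLevelOK 𝔓 F₀ Fb hj hjb H)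
    (f : ↥(laurentBaseChange Qb F₀))
    (hf : TbGauss 𝔓.P (IsLocalRing.residue ↥𝔓.P) (f : LaurentSeries Qb))
    (hint : IsIntegral ↥(Algebra.adjoin Qb {(tglJ F₀ hj)⁻¹}) f) :
    IsIntegral ↥(Algebra.adjoin (IsLocalRing.ResidueField ↥𝔓.P) {(tglBarJ 𝔓 Fb hjb)⁻¹})
      (⟨tbRhoFun 𝔓.P (IsLocalRing.residue ↥𝔓.P) (f : LaurentSeries Qb),
        tgl_range hOK f.2 hf⟩ : ↥Fb) := by
  obtain ⟨H, hH, fH, hfH, hint'⟩ := tgl_exists_level_isIntegral (𝔓 := 𝔓) (tglJ F₀ hj)⁻¹ f hint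
  have hfH' : tbPhi 𝔓 H (fH : LaurentSeries ↥(tbFix 𝔓 H)) = (f : LaurentSeries Qb) := by
    rw [← coe_tglPhiF, hfH]
  have hg : TbGauss (tbFixO 𝔓 H) (tbFixRes 𝔓 H) (fH : LaurentSeries ↥(tbFix 𝔓 H)) :=
    tgl_gauss_descend (hOK H hH) fH.2 (by rw [hfH']; exact hf)
  have h1 := (hOK H hH).int2 fH hg (hint' _ (by rw [map_inv₀, tglPhiF_tglLevJ]))
  have h2 : (⟨tbRhoFun 𝔓.P (IsLocalRing.residue ↥𝔓.P) (f : LaurentSeries Qb),
      tgl_range hOK f.2 hf⟩ : ↥Fb) =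
      ⟨tbRhoFun (tbFixO 𝔓 H) (tbFixRes 𝔓 H) (fH : LaurentSeries ↥(tbFix 𝔓 H)),
        (hOK H hH).range _ fH.2 hg⟩ := by
    apply Subtype.ext
    show tbRhoFun 𝔓.P _ _ = tbRhoFun (tbFixO 𝔓 H) _ _
    rw [← hfH', tbPhi_rho 𝔓 H hg]
  rw [h2]
  exact h1

end Fermat.Agent.T1G
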