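/-
T1G (helper6), (G4) TG-LEVEL part 4: **the valuation-theoretic base `(ℚ̄, A) ⊂ (ℚ̄ · F₀, 𝒪_v)` of
CORE' and K1**, generic in the function field `F₀` (port of helper9's `Lib/T1/Inst/BaseQ.lean`):

`tgl_K1`: if `y ∈ ℚ̄ · F₀`, `m ∣ div y`, `m` prime to `ℓ`, and `y = a / b` with `a, b ∈ A((q))`,
`ā = b̄ ≠ 0`, then `y` is an `m`-th power — provided `Fb / κ(j̄)` is a separable function field of
the same degree as `ℚ̄ · F₀ / ℚ̄(j)` and `genus(ℚ̄ · F₀) ≤ genus(Fb)`.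
-/
import Fermat.Agent.Lib.T1G.Level.CartInt
import Fermat.Agent.Lib.T1.Inst.ResAlgClosed
import Fermat.Agent.Lib.T1.Core.CoreFF

set_option autoImplicit false
set_option linter.style.haveILetI false
set_option linter.unusedSectionVars false
set_option synthInstance.maxHeartbeats 400000

open HahnSeries ModularCurve Fermat.Agent.TW Fermat.Agent.S05Lib AlgebraicCurve
  Fermat.Agent.Curve IntermediateField Fermat.Agent.T1

noncomputable section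

namespace Fermat.Agent.T1G

local notation "Qb" => AlgebraicClosure ℚ

variable (𝔓 : FFPlace) (F₀ : IntermediateField ℚ (LaurentSeries ℚ))

/-- the Gauss ring of `ℚ̄ · F₀` over `(ℚ̄, A)` -/
def tglOvQ : Subring ↥(laurentBaseChange Qb F₀) where
  carrier := {f | TbGauss 𝔓.P (IsLocalRing.residue ↥𝔓.P) (f : LaurentSeries Qb)}
  mul_mem' := fun {_ _} hf hg => (tbGaussSubring 𝔓.P (IsLocalRing.residue ↥𝔓.P)).mul_mem hf hg
  one_mem' := (tbGaussSubring 𝔓.P (IsLocalRing.residue ↥𝔓.P)).one_mem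
  add_mem' := fun {_ _} hf hg => (tbGaussSubring 𝔓.P (IsLocalRing.residue ↥𝔓.P)).add_mem hf hg
  zero_mem' := (tbGaussSubring 𝔓.P (IsLocalRing.residue ↥𝔓.P)).zero_mem
  neg_mem' := fun {_} hf => (tbGaussSubring 𝔓.P (IsLocalRing.residue ↥𝔓.P)).neg_mem hf

theorem mem_tglOvQ (f : ↥(laurentBaseChange Qb F₀)) :
    f ∈ tglOvQ 𝔓 F₀ ↔ TbGauss 𝔓.P (IsLocalRing.residue ↥𝔓.P) (f : LaurentSeries Qb) := Iff.rfl

variable {𝔓 F₀}
  {Fb : IntermediateField (IsLocalRing.ResidueField ↥𝔓.P)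
    (LaurentSeries (IsLocalRing.ResidueField ↥𝔓.P))}
  {hj : jq ∈ F₀} {hjb : jqModC (IsLocalRing.ResidueField ↥𝔓.P) ∈ Fb}

/-- the reduction map `𝒪_v → Fb` -/
def tglResQ (hOK : ∀ H : Subgroup 𝔓.I, H.FiniteIndex → TglLevelOK 𝔓 F₀ Fb hj hjb H) :
    ↥(tglOvQ 𝔓 F₀) →+* ↥Fb where
  toFun f := ⟨tbRhoFun 𝔓.P (IsLocalRing.residue ↥𝔓.P)
    ((f : ↥(laurentBaseChange Qb F₀)) : LaurentSeries Qb), tgl_range hOK f.1.2 f.2⟩
  map_one' := Subtype.ext (tbRhoFun_one _ _)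
  map_zero' := Subtype.ext (tbRhoFun_zero _ _)
  map_mul' f g := Subtype.ext (tbRhoFun_mul _ _ f.2 g.2)
  map_add' f g := Subtype.ext (tbRhoFun_add _ _ f.2 g.2)

theorem coe_tglResQ (hOK : ∀ H : Subgroup 𝔓.I, H.FiniteIndex → TglLevelOK 𝔓 F₀ Fb hj hjb H)
    (f : ↥(tglOvQ 𝔓 F₀)) :
    ((tglResQ hOK f : ↥Fb) : LaurentSeries (IsLocalRing.ResidueField ↥𝔓.P)) =
      tbRhoFun 𝔓.P (IsLocalRing.residue ↥𝔓.P)
        ((f : ↥(laurentBaseChange Qb F₀)) : LaurentSeries Qb) := rfl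

/-- a fraction `a / b` of integral series with `b̄ ≠ 0` lies in the Gauss ring -/
theorem tgl_mem_of_frac {f : ↥(laurentBaseChange Qb F₀)} {a b : LaurentSeries ↥𝔓.P}
    (hb : coeffMap (IsLocalRing.residue ↥𝔓.P) b ≠ 0)
    (hf : (f : LaurentSeries Qb) * coeffMap 𝔓.P.subtype b = coeffMap 𝔓.P.subtype a) :
    f ∈ tglOvQ 𝔓 F₀ := ⟨a, b, hb, hf⟩

theorem tglResQ_of_frac (hOK : ∀ H : Subgroup 𝔓.I, H.FiniteIndex → TglLevelOK 𝔓 F₀ Fb hj hjb H)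
    {f : ↥(laurentBaseChange Qb F₀)} {a b : LaurentSeries ↥𝔓.P}
    (hb : coeffMap (IsLocalRing.residue ↥𝔓.P) b ≠ 0)
    (hf : (f : LaurentSeries Qb) * coeffMap 𝔓.P.subtype b = coeffMap 𝔓.P.subtype a) :
    ((tglResQ hOK ⟨f, tgl_mem_of_frac hb hf⟩ : ↥Fb) :
      LaurentSeries (IsLocalRing.ResidueField ↥𝔓.P)) =
      coeffMap (IsLocalRing.residue ↥𝔓.P) a / coeffMap (IsLocalRing.residue ↥𝔓.P) b :=
  tbRhoFun_eq 𝔓.P (IsLocalRing.residue ↥𝔓.P) hb hf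

/-- **the base of CORE' for the function field `ℚ̄ · F₀`** -/
def tglBaseQ (hOK : ∀ H : Subgroup 𝔓.I, H.FiniteIndex → TglLevelOK 𝔓 F₀ Fb hj hjb H) :
    TbBase Qb ↥(laurentBaseChange Qb F₀) (IsLocalRing.ResidueField ↥𝔓.P) ↥Fb where
  A := 𝔓.P
  resA := IsLocalRing.residue ↥𝔓.P
  resA_surj := IsLocalRing.residue_surjective
  Ov := tglOvQ 𝔓 F₀
  res := tglResQ hOK
  res_surj := by
    intro t
    obtain ⟨f, hf, hG, hρ⟩ := tgl_surj hOK t.2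
    exact ⟨⟨⟨f, hf⟩, hG⟩, Subtype.ext hρ⟩
  algebraMap_mem := fun a => by
    rw [mem_tglOvQ]
    have h1 : ((algebraMap Qb ↥(laurentBaseChange Qb F₀) (a : Qb) :
        ↥(laurentBaseChange Qb F₀)) : LaurentSeries Qb) = HahnSeries.C (a : Qb) := by
      rw [HahnSeries.C_apply, ← algebraMap_laurentSeries_eq_single]
      rfl
    rw [h1]
    exact tbGauss_C _ _ a
  res_algebraMap := fun a => by
    apply Subtype.ext
    rw [coe_tglResQ]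
    have h1 : ((algebraMap Qb ↥(laurentBaseChange Qb F₀) (a : Qb) :
        ↥(laurentBaseChange Qb F₀)) : LaurentSeries Qb) = HahnSeries.C (a : Qb) := by
      rw [HahnSeries.C_apply, ← algebraMap_laurentSeries_eq_single]
      rfl
    show tbRhoFun 𝔓.P _ ((algebraMap Qb ↥(laurentBaseChange Qb F₀) (a : Qb) :
      ↥(laurentBaseChange Qb F₀)) : LaurentSeries Qb) = _
    rw [h1, tbRhoFun_C, HahnSeries.C_apply, ← algebraMap_laurentSeries_eq_single]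
    rfl
  normalize := fun f hf0 => by
    obtain ⟨c, a, b, hc, haF, hbF, hak, hbk, ha0, hb0, hfab⟩ := tgl_normalForm hOK f hf0
    have hf : ((c⁻¹ • f : ↥(laurentBaseChange Qb F₀)) : LaurentSeries Qb) *
        coeffMap 𝔓.P.subtype b = coeffMap 𝔓.P.subtype a := by
      rw [tbq_coe_smul, mul_assoc, hfab, ← mul_assoc, HahnSeries.C_apply,
        ← algebraMap_laurentSeries_eq_single, ← map_mul, inv_mul_cancel₀ hc, map_one, one_mul]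
    refine ⟨c⁻¹, inv_ne_zero hc, tgl_mem_of_frac hb0 hf, fun h0 => ?_⟩
    have h1 := congrArg (Subtype.val : ↥Fb → LaurentSeries _) h0
    rw [tglResQ_of_frac hOK hb0 hf] at h1
    exact div_ne_zero ha0 hb0 h1
  arch := tb_arch 𝔓
  cart := fun W hW => by
    haveI := hW
    exact tgl_cart hOK W

/-- `j` is a Gauss unit with residue `j̄` -/
theorem tglJ_mem_tglOvQ : tglJ F₀ hj ∈ tglOvQ 𝔓 F₀ := by
  refine tgl_mem_of_frac (a := jqModC ↥𝔓.P) (b := 1) ?_ ?_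
  · rw [map_one]; exact one_ne_zero
  · rw [map_one, mul_one, coeffMap_jqModC]
    rfl

theorem tglResQ_tglJ (hOK : ∀ H : Subgroup 𝔓.I, H.FiniteIndex → TglLevelOK 𝔓 F₀ Fb hj hjb H) :
    tglResQ hOK ⟨tglJ F₀ hj, tglJ_mem_tglOvQ⟩ = tglBarJ 𝔓 Fb hjb := by
  apply Subtype.ext
  have h1 : ((tglJ F₀ hj : ↥(laurentBaseChange Qb F₀)) : LaurentSeries Qb) *
      coeffMap 𝔓.P.subtype 1 = coeffMap 𝔓.P.subtype (jqModC ↥𝔓.P) := by
    rw [map_one, mul_one, coeffMap_jqModC]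
    rfl
  have h2 : coeffMap (IsLocalRing.residue ↥𝔓.P) (1 : LaurentSeries ↥𝔓.P) ≠ 0 := by
    rw [map_one]; exact one_ne_zero
  rw [tglResQ_of_frac hOK h2 h1, map_one, div_one, coeffMap_jqModC]
  rfl

theorem tglJ_inv_mem_tglOvQ : (tglJ F₀ hj)⁻¹ ∈ tglOvQ 𝔓 F₀ := by
  have hj0 : jqModC (IsLocalRing.ResidueField ↥𝔓.P) ≠ 0 := jqModC_ne_zero_of_nontrivial _
  have hjQ : jqModC Qb ≠ 0 := jqModC_ne_zero_of_nontrivial _
  refine tgl_mem_of_frac (a := 1) (b := jqModC ↥𝔓.P) ?_ ?_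
  · rw [coeffMap_jqModC]; exact hj0
  · rw [map_one, coeffMap_jqModC]
    show (jqModC Qb)⁻¹ * jqModC Qb = 1
    exact inv_mul_cancel₀ hjQ

set_option maxHeartbeats 1600000 in
/-- **K1**: injectivity of reduction on the prime-to-`ℓ` part of the Kummer group -/
theorem tgl_K1 (hOK : ∀ H : Subgroup 𝔓.I, H.FiniteIndex → TglLevelOK 𝔓 F₀ Fb hj hjb H)
    {m : ℕ} (hm : Nat.Coprime m 𝔓.p)
    (hgen : IsFunctionFieldGen Qb ↥(laurentBaseChange Qb F₀) (tglJ F₀ hj))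
    (hgenb : IsFunctionFieldGen (IsLocalRing.ResidueField ↥𝔓.P) ↥Fb (tglBarJ 𝔓 Fb hjb))
    [Algebra.IsSeparable ↥((IsLocalRing.ResidueField ↥𝔓.P)⟮tglBarJ 𝔓 Fb hjb⟯) ↥Fb]
    (hdeg : Module.finrank ↥(Qb⟮tglJ F₀ hj⟯) ↥(laurentBaseChange Qb F₀) =
      Module.finrank ↥((IsLocalRing.ResidueField ↥𝔓.P)⟮tglBarJ 𝔓 Fb hjb⟯) ↥Fb)
    (hgenus : CurveP.genusR Qb ↥(laurentBaseChange Qb F₀) ≤
      CurveP.genusR (IsLocalRing.ResidueField ↥𝔓.P) ↥Fb)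
    {y : ↥(laurentBaseChange Qb F₀)}
    (hdiv : ∀ v : Place Qb ↥(laurentBaseChange Qb F₀), (m : ℤ) ∣ v.ord y)
    {a b : LaurentSeries ↥𝔓.P} (hb : coeffMap (IsLocalRing.residue ↥𝔓.P) b ≠ 0)
    (hab : coeffMap (IsLocalRing.residue ↥𝔓.P) a = coeffMap (IsLocalRing.residue ↥𝔓.P) b)
    (hy : (y : LaurentSeries Qb) * coeffMap 𝔓.P.subtype b = coeffMap 𝔓.P.subtype a) :
    ∃ g : ↥(laurentBaseChange Qb F₀), g ^ m = y := by
  haveI : IsAlgClosed (IsLocalRing.ResidueField ↥𝔓.P) := tb_isAlgClosed_residueField 𝔓.P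
  haveI : Algebra.IsSeparable ↥(Qb⟮tglJ F₀ hj⟯) ↥(laurentBaseChange Qb F₀) := by
    haveI := hgen.finite
    haveI : CharZero ↥(Qb⟮tglJ F₀ hj⟯) :=
      charZero_of_injective_algebraMap (algebraMap Qb ↥(Qb⟮tglJ F₀ hj⟯)).injective
    infer_instance
  have hres : (tglBaseQ hOK).res ⟨tglJ F₀ hj, tglJ_mem_tglOvQ⟩ = tglBarJ 𝔓 Fb hjb :=
    tglResQ_tglJ hOK
  have hℓA : ((𝔓.p : ℕ) : Qb) ∈ (tglBaseQ hOK).A.nonunits := 𝔓.hP
  have hℓ0 : ((𝔓.p : ℕ) : Qb) ≠ 0 := by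
    exact_mod_cast 𝔓.hp.ne_zero
  have hyO : y ∈ (tglBaseQ hOK).Ov := tgl_mem_of_frac hb hy
  have hy1 : (tglBaseQ hOK).res ⟨y, hyO⟩ = 1 := by
    apply Subtype.ext
    show ((tglResQ hOK ⟨y, tgl_mem_of_frac hb hy⟩ : ↥Fb) :
      LaurentSeries (IsLocalRing.ResidueField ↥𝔓.P)) = 1
    rw [tglResQ_of_frac hOK hb hy, hab, div_self hb]
  have key : ∀ xb : ↥Fb, xb = (tglBaseQ hOK).res ⟨tglJ F₀ hj, tglJ_mem_tglOvQ⟩ →
      IsFunctionFieldGen (IsLocalRing.ResidueField ↥𝔓.P) ↥Fb xb →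
      Algebra.IsSeparable ↥((IsLocalRing.ResidueField ↥𝔓.P)⟮xb⟯) ↥Fb →
      Module.finrank ↥(Qb⟮tglJ F₀ hj⟯) ↥(laurentBaseChange Qb F₀) =
        Module.finrank ↥((IsLocalRing.ResidueField ↥𝔓.P)⟮xb⟯) ↥Fb →
      (∀ (f : ↥(laurentBaseChange Qb F₀)) (hf : f ∈ (tglBaseQ hOK).Ov),
        IsIntegral ↥(Algebra.adjoin Qb {tglJ F₀ hj}) f →
        IsIntegral ↥(Algebra.adjoin (IsLocalRing.ResidueField ↥𝔓.P) {xb})
          ((tglBaseQ hOK).res ⟨f, hf⟩)) →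
      (∀ (f : ↥(laurentBaseChange Qb F₀)) (hf : f ∈ (tglBaseQ hOK).Ov),
        IsIntegral ↥(Algebra.adjoin Qb {(tglJ F₀ hj)⁻¹}) f →
        IsIntegral ↥(Algebra.adjoin (IsLocalRing.ResidueField ↥𝔓.P) {xb⁻¹})
          ((tglBaseQ hOK).res ⟨f, hf⟩)) →
      ∃ g : ↥(laurentBaseChange Qb F₀), g ^ m = y := by
    intro xb hxb
    subst hxb
    intro h1 h2 h3 h4 h5
    haveI := h2
    exact tb_core_functionField (tglBaseQ hOK) 𝔓.hp hℓA hℓ0 hm hgen tglJ_mem_tglOvQ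
      tglJ_inv_mem_tglOvQ h1 h3 hgenus h4 h5 hyO hy1 hdiv
  exact key (tglBarJ 𝔓 Fb hjb) hres.symm hgenb inferInstance hdeg
    (fun f hf hint => tgl_int1 hOK f hf hint) (fun f hf hint => tgl_int2 hOK f hf hint)

end Fermat.Agent.T1G
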