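/-
T1G (helper6), (G4) TG-LEVEL part 5: **TG-CORE ⟹ the finite-level interface, at a DVR level**
(port of helper9's `Lib/T1/Inst/FromTa.lean`).

`(L, O, π : O → k)` a discretely valued field of characteristic `0` with `(M : k) ≠ 0`, `ζ ∈ L` a
primitive `M`-th root of unity, `Gal : TgGalois L M ζ`.  For an intermediate field `E` of `L((q))`
which is EQUAL to `TgOne L M ζ` (in the application `E = laurentBaseChange L (tgOneQ M)`), the five
clauses of `TglLevelOK` in terms of `TbGauss`/`tbRhoFun`.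
-/
import Fermat.Agent.Lib.T1G.GoodRed.CoreMain
import Fermat.Agent.Lib.T1.Inst.FromTa

set_option autoImplicit false
set_option linter.style.haveILetI false
set_option linter.unusedSectionVars false
set_option synthInstance.maxHeartbeats 400000

open HahnSeries ModularCurve Fermat.Agent.T1 Polynomial

noncomputable section

namespace Fermat.Agent.T1G

section Generic

variable {L : Type*} [Field L] (O : ValuationSubring L) {k : Type*} [Field k]
  (π : ↥O →+* k) [IsDiscreteValuationRing ↥O] (hπ : Function.Surjective π)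

include hπ in
/-- **the Gauss normal form with numerator and denominator in `E`**, for any intermediate field `E`
of `L((q))` which is the fraction field of `E ∩ O((q))` -/
theorem tgf_nf_generic (E : IntermediateField L (LaurentSeries L))
    (hfrac : ∀ f ∈ E, f ∈ tbiFrac (E.toSubring ⊓ (tbInc O).range))
    (f : LaurentSeries L) (hf : f ∈ E) (hf0 : f ≠ 0) :
    ∃ (c : L) (a b : LaurentSeries ↥O), c ≠ 0 ∧ tbInc O a ∈ E ∧ tbInc O b ∈ E ∧
      tbRed π a ≠ 0 ∧ tbRed π b ≠ 0 ∧ f * tbInc O b = HahnSeries.C c * tbInc O a := by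
  obtain ⟨ϖ, hϖ⟩ := IsDiscreteValuationRing.exists_irreducible ↥O
  have hϖ0 : ((ϖ : ↥O) : L) ≠ 0 := ta_coe_unif_ne_zero hϖ
  have hCmem : ∀ c : L, (HahnSeries.C c : LaurentSeries L) ∈ E := by
    intro c
    have h := E.algebraMap_mem c
    rwa [algebraMap_laurentSeries_eq_single, ← HahnSeries.C_apply] at h
  obtain ⟨a', ⟨ha'F, a₁, rfl⟩, b', ⟨hb'F, b₁, rfl⟩, hb'0, hrel⟩ := hfrac f hf
  have hb₁0 : b₁ ≠ 0 := by
    rintro rfl
    exact hb'0 (map_zero _)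
  have ha₁0 : a₁ ≠ 0 := by
    rintro rfl
    rw [map_zero] at hrel
    exact (mul_ne_zero hf0 hb'0) hrel
  obtain ⟨m, a, ha, rfl⟩ := ta_exists_pow_mul_primitive (π := π) hπ hϖ ha₁0
  obtain ⟨m', b, hb, rfl⟩ := ta_exists_pow_mul_primitive (π := π) hπ hϖ hb₁0
  have hCϖ : (HahnSeries.C ((ϖ : ↥O) : L) : LaurentSeries L) ≠ 0 := ta_C_unif_ne_zero hϖ
  have hinc : ∀ (n : ℕ) (s : LaurentSeries ↥O),
      tbInc O (HahnSeries.C ϖ ^ n * s) = HahnSeries.C ((ϖ : ↥O) : L) ^ n * tbInc O s := by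
    intro n s
    rw [map_mul, map_pow, tbInc_C]
  have ha'F' : HahnSeries.C ((ϖ : ↥O) : L) ^ m * tbInc O a ∈ E := by
    rw [← hinc]; exact ha'F
  have hb'F' : HahnSeries.C ((ϖ : ↥O) : L) ^ m' * tbInc O b ∈ E := by
    rw [← hinc]; exact hb'F
  have hrel' : f * (HahnSeries.C ((ϖ : ↥O) : L) ^ m' * tbInc O b) =
      HahnSeries.C ((ϖ : ↥O) : L) ^ m * tbInc O a := by
    rw [← hinc, ← hinc]; exact hrel
  have hmemF : ∀ (n : ℕ) (s : LaurentSeries ↥O),
      HahnSeries.C ((ϖ : ↥O) : L) ^ n * tbInc O s ∈ E → tbInc O s ∈ E := by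
    intro n s h
    have h1 := mul_mem (inv_mem (pow_mem (hCmem ((ϖ : ↥O) : L)) n)) h
    rwa [← mul_assoc, inv_mul_cancel₀ (pow_ne_zero n hCϖ), one_mul] at h1
  refine ⟨((ϖ : ↥O) : L) ^ m / ((ϖ : ↥O) : L) ^ m', a, b,
    div_ne_zero (pow_ne_zero m hϖ0) (pow_ne_zero m' hϖ0), hmemF m a ha'F', hmemF m' b hb'F', ha, hb,
    ?_⟩
  have h3 : f * tbInc O b = (HahnSeries.C ((ϖ : ↥O) : L) ^ m')⁻¹ *
      (HahnSeries.C ((ϖ : ↥O) : L) ^ m * tbInc O a) := by
    rw [← hrel']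
    field_simp
  rw [h3, map_div₀, map_pow, map_pow]
  field_simp

end Generic

variable {L : Type*} [Field L] [Algebra ℚ L] (O : ValuationSubring L)
  {k : Type*} [Field k] (π : ↥O →+* k)
  [IsDiscreteValuationRing ↥O] (hπ : Function.Surjective π)
  {M : ℕ} [NeZero M] {ζ : Lˣ} (hζ : IsPrimitiveRoot ζ M) (hM : (M : k) ≠ 0)
  (Gal : TgGalois L M ζ)

include π hπ hζ hM in
/-- `TgOne L M ζ` is the fraction field of `TgOne L M ζ ∩ O((q))` -/
theorem tgf_frac (f : LaurentSeries L) (hf : f ∈ TgOne L M ζ) :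
    f ∈ tbiFrac ((TgOne L M ζ).toSubring ⊓ (tbInc O).range) := by
  set R : Subring (LaurentSeries L) := (TgOne L M ζ).toSubring ⊓ (tbInc O).range with hR
  have hCmem : ∀ c : L, (HahnSeries.C c : LaurentSeries L) ∈ TgOne L M ζ := by
    intro c
    have h := (TgOne L M ζ).algebraMap_mem c
    rwa [algebraMap_laurentSeries_eq_single, ← HahnSeries.C_apply] at h
  have hf' : f ∈ IntermediateField.adjoin L (divisorExpansionsC L M ∪ tgNu1Set L M ζ) := hf
  clear hf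
  induction hf' using IntermediateField.adjoin_induction with
  | mem y hy =>
    apply tbi_le_tbiFrac
    rcases hy with ⟨d, hd0, hd, rfl⟩ | ⟨a, a', ha, ha', rfl⟩
    · haveI := hd0
      refine ⟨IntermediateField.subset_adjoin L _ (Or.inl ⟨d, hd0, hd, rfl⟩),
        ⟨qExpand ↥O d (jqModC ↥O), ?_⟩⟩
      exact (tg_jqd_eq_taInc O d).symm
    · refine ⟨tgNu1_mem_tgOne L M ζ ha ha', ⟨tgNu1 ↥O M (tgZetaO O hζ.pow_eq_one) a a', ?_⟩⟩
      exact (tgNu1_eq_taInc O π hπ hζ hM ha ha').symm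
  | algebraMap c =>
    rw [algebraMap_laurentSeries_eq_single, ← HahnSeries.C_apply]
    rcases O.mem_or_inv_mem c with hc | hc
    · apply tbi_le_tbiFrac
      exact ⟨hCmem c, ⟨HahnSeries.C ⟨c, hc⟩, tbInc_C O ⟨c, hc⟩⟩⟩
    · have h1 : (HahnSeries.C c⁻¹ : LaurentSeries L) ∈ tbiFrac R := by
        apply tbi_le_tbiFrac
        exact ⟨hCmem c⁻¹, ⟨HahnSeries.C ⟨c⁻¹, hc⟩, tbInc_C O ⟨c⁻¹, hc⟩⟩⟩
      have h2 := inv_mem h1
      rwa [← map_inv₀, inv_inv] at h2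
  | add x y _ _ hx hy => exact add_mem hx hy
  | inv x _ hx => exact inv_mem hx
  | mul x y _ _ hx hy => exact mul_mem hx hy

include π hπ hζ hM in
/-- **the Gauss normal form** for `TgOne L M ζ` -/
theorem tgf_nf (f : LaurentSeries L) (hf : f ∈ TgOne L M ζ) (hf0 : f ≠ 0) :
    ∃ (c : L) (a b : LaurentSeries ↥O), c ≠ 0 ∧ tbInc O a ∈ TgOne L M ζ ∧
      tbInc O b ∈ TgOne L M ζ ∧ tbRed π a ≠ 0 ∧ tbRed π b ≠ 0 ∧
      f * tbInc O b = HahnSeries.C c * tbInc O a :=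
  tgf_nf_generic O π hπ (TgOne L M ζ) (tgf_frac O π hπ hζ hM) f hf hf0

theorem tgf_tgoRes_eq (f : ↥(tgoV O π hπ hζ hM)) :
    tgoRes O π hπ hζ hM f = tbRhoFun O π (((f : ↥(TgOne L M ζ)) : LaurentSeries L)) := by
  rw [tbf_rhoFun_eq]
  rfl

include hπ hM Gal in
/-- (A1) in the shape of `TglLevelOK.range` -/
theorem tgf_range (h6 : 6 ≤ M) (f : LaurentSeries L) (hf : f ∈ TgOne L M ζ)
    (hG : TbGauss O π f) :
    tbRhoFun O π f ∈ TgOne k M (tgZetaBar O π hζ.pow_eq_one) := by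
  have h := tgo_range O π hπ hζ hM Gal h6 ⟨⟨f, hf⟩, hG⟩
  rwa [tgf_tgoRes_eq] at h

include hπ hM in
/-- (A1), second half, in the shape of `TglLevelOK.surj` -/
theorem tgf_surj (t : LaurentSeries k) (ht : t ∈ TgOne k M (tgZetaBar O π hζ.pow_eq_one)) :
    ∃ f : LaurentSeries L, f ∈ TgOne L M ζ ∧ TbGauss O π f ∧ tbRhoFun O π f = t := by
  obtain ⟨x, hx⟩ := tgo_exists_res_eq O π hπ hζ hM ⟨t, ht⟩
  refine ⟨((x : ↥(TgOne L M ζ)) : LaurentSeries L), (x : ↥(TgOne L M ζ)).2, x.2, ?_⟩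
  rw [← tgf_tgoRes_eq, hx]

include hπ hζ hM Gal in
/-- (A4) in the shape of `TglLevelOK.cart` -/
theorem tgf_cart (h6 : 6 ≤ M) (W : Submodule L ↥(TgOne L M ζ)) (hW : FiniteDimensional L ↥W) :
    ∃ (n : ℕ) (b : Fin n → ↥(TgOne L M ζ)),
      (∀ i, TbGauss O π (b i : LaurentSeries L)) ∧
      Submodule.span L (Set.range b) = W ∧
      LinearIndependent k (fun i => tbRhoFun O π (b i : LaurentSeries L)) := by
  obtain ⟨m, w, hw, -, -, hspan, -, hres⟩ := tgo_cart O π hπ hζ hM Gal h6 W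
  refine ⟨m, w, fun i => hw i, hspan, ?_⟩
  rw [Fintype.linearIndependent_iff]
  intro γ hγ
  refine hres γ ?_
  rw [← hγ]
  refine Finset.sum_congr rfl fun i _ => ?_
  rw [HahnSeries.C_mul_eq_smul, tgf_tgoRes_eq]

include Gal in
/-- (A3), chart `j`, in the shape of `TglLevelOK.int1` -/
theorem tgf_int1 (h6 : 6 ≤ M) (f : ↥(TgOne L M ζ)) (hG : TbGauss O π (f : LaurentSeries L))
    (hint : IsIntegral ↥(Algebra.adjoin L {tgOneJ L M ζ}) f) :
    IsIntegral ↥(Algebra.adjoin k {tgOneJ k M (tgZetaBar O π hζ.pow_eq_one)})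
      (⟨tbRhoFun O π (f : LaurentSeries L), tgf_range O π hπ hζ hM Gal h6 _ f.2 hG⟩ :
        ↥(TgOne k M (tgZetaBar O π hζ.pow_eq_one))) := by
  rw [tbf_isIntegral_coe]
  have h := tgo_res_int_fin O π hπ hζ hM Gal h6 ⟨f, hG⟩ hint
  rwa [tgf_tgoRes_eq] at h

include Gal in
/-- (A3), chart `1/j`, in the shape of `TglLevelOK.int2` -/
theorem tgf_int2 (h6 : 6 ≤ M) (f : ↥(TgOne L M ζ)) (hG : TbGauss O π (f : LaurentSeries L))
    (hint : IsIntegral ↥(Algebra.adjoin L {(tgOneJ L M ζ)⁻¹}) f) :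
    IsIntegral ↥(Algebra.adjoin k {(tgOneJ k M (tgZetaBar O π hζ.pow_eq_one))⁻¹})
      (⟨tbRhoFun O π (f : LaurentSeries L), tgf_range O π hπ hζ hM Gal h6 _ f.2 hG⟩ :
        ↥(TgOne k M (tgZetaBar O π hζ.pow_eq_one))) := by
  rw [tbf_isIntegral_coe]
  have h := tgo_res_int_inf O π hπ hζ hM Gal h6 ⟨f, hG⟩ hint
  rwa [tgf_tgoRes_eq] at h

/-! ### The same for a field `E` equal to `TgOne L M ζ` and a root of unity equal to `ζ̄` -/

include hπ hζ hM Gal in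
/-- (A4) for `E = TgOne L M ζ` -/
theorem tgf_cart' (h6 : 6 ≤ M) (E : IntermediateField L (LaurentSeries L))
    (hE : E = TgOne L M ζ) (W : Submodule L ↥E) (hW : FiniteDimensional L ↥W) :
    ∃ (n : ℕ) (b : Fin n → ↥E),
      (∀ i, TbGauss O π (b i : LaurentSeries L)) ∧
      Submodule.span L (Set.range b) = W ∧
      LinearIndependent k (fun i => tbRhoFun O π (b i : LaurentSeries L)) := by
  subst hE
  exact tgf_cart O π hπ hζ hM Gal h6 W hW

include hπ hM Gal in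
/-- (A3), chart `j`, for `E = TgOne L M ζ`, `Fb = TgOne k M ζb`, `ζb = ζ̄` -/
theorem tgf_int1' (h6 : 6 ≤ M) (E : IntermediateField L (LaurentSeries L))
    (hE : E = TgOne L M ζ) (ζb : kˣ) (hζb : tgZetaBar O π hζ.pow_eq_one = ζb)
    (jE : ↥E) (hjE : (jE : LaurentSeries L) = jqModC L)
    (jb : ↥(TgOne k M ζb)) (hjb : (jb : LaurentSeries k) = jqModC k)
    (hrange : ∀ f : LaurentSeries L, f ∈ E → TbGauss O π f → tbRhoFun O π f ∈ TgOne k M ζb)
    (f : ↥E) (hG : TbGauss O π (f : LaurentSeries L))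
    (hint : IsIntegral ↥(Algebra.adjoin L {jE}) f) :
    IsIntegral ↥(Algebra.adjoin k {jb})
      (⟨tbRhoFun O π (f : LaurentSeries L), hrange _ f.2 hG⟩ : ↥(TgOne k M ζb)) := by
  subst hE hζb
  have h1 : jE = tgOneJ L M ζ := Subtype.ext hjE
  have h2 : jb = tgOneJ k M (tgZetaBar O π hζ.pow_eq_one) := Subtype.ext hjb
  subst h1 h2
  exact tgf_int1 O π hπ hζ hM Gal h6 f hG hint

include hπ hM Gal in
/-- (A3), chart `1/j`, for `E = TgOne L M ζ`, `Fb = TgOne k M ζb`, `ζb = ζ̄` -/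
theorem tgf_int2' (h6 : 6 ≤ M) (E : IntermediateField L (LaurentSeries L))
    (hE : E = TgOne L M ζ) (ζb : kˣ) (hζb : tgZetaBar O π hζ.pow_eq_one = ζb)
    (jE : ↥E) (hjE : (jE : LaurentSeries L) = jqModC L)
    (jb : ↥(TgOne k M ζb)) (hjb : (jb : LaurentSeries k) = jqModC k)
    (hrange : ∀ f : LaurentSeries L, f ∈ E → TbGauss O π f → tbRhoFun O π f ∈ TgOne k M ζb)
    (f : ↥E) (hG : TbGauss O π (f : LaurentSeries L))
    (hint : IsIntegral ↥(Algebra.adjoin L {jE⁻¹}) f) :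
    IsIntegral ↥(Algebra.adjoin k {jb⁻¹})
      (⟨tbRhoFun O π (f : LaurentSeries L), hrange _ f.2 hG⟩ : ↥(TgOne k M ζb)) := by
  subst hE hζb
  have h1 : jE = tgOneJ L M ζ := Subtype.ext hjE
  have h2 : jb = tgOneJ k M (tgZetaBar O π hζ.pow_eq_one) := Subtype.ext hjb
  subst h1 h2
  exact tgf_int2 O π hπ hζ hM Gal h6 f hG hint

end Fermat.Agent.T1G
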