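/-
T1G (helper6), (G4) TG-LEVEL part 6: **the finite-level interface for `F₀ = tgOneQ M` at a place
`𝔓 ∤ M` of `ℚ̄`**, from a Galois package `G : TgGalois ℚ̄ M ζ` over `ℚ̄`:

* `tgl_zeta_mem_K0`: `ζ` lies in the inertia field (hence in every `L_H = ℚ̄^H`);
* `tglZetaH`, `tglGalH`: `ζ` and the descended Galois package (TG-DESC) at level `H`;
* `tglZetaBar`, `tglGalBar : TgGalois κ M ζ̄`: the reduction of `ζ` and the reduced package;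
* `tgl_levelOK : TglLevelOK 𝔓 (tgOneQ M) (TgOne κ M ζ̄) _ _ H` for every finite-index `H`.
-/
import Fermat.Agent.Lib.T1G.Level.FromTgo
import Fermat.Agent.Lib.T1G.Level.Base
import Fermat.Agent.Lib.T1G.Desc.Galois
import Fermat.Agent.Lib.T1G.Model.Rat
import Fermat.Agent.Lib.T1.Kron.Rep

set_option autoImplicit false
set_option linter.style.haveILetI false
set_option linter.unusedSectionVars false
set_option synthInstance.maxHeartbeats 400000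

open HahnSeries ModularCurve Fermat.Agent.TW Fermat.Agent.S05Lib Fermat.Agent.T1 Polynomial

noncomputable section

namespace Fermat.Agent.T1G

local notation "Qb" => AlgebraicClosure ℚ
local notation "GQ" => (AlgebraicClosure ℚ ≃ₐ[ℚ] AlgebraicClosure ℚ)

variable (𝔓 : FFPlace) {M : ℕ} [NeZero M] {ζ : Qbˣ} (hζ : IsPrimitiveRoot ζ M)

/-- `M ≠ 0` in the residue field if `𝔓.p ∤ M` -/
theorem tgl_natCast_ne_zero (hpM : ¬ 𝔓.p ∣ M) :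
    ((M : ℕ) : IsLocalRing.ResidueField ↥𝔓.P) ≠ 0 := by
  haveI : CharP (IsLocalRing.ResidueField ↥𝔓.P) 𝔓.p := tkr_charP_residue 𝔓.hp 𝔓.hP
  intro h
  exact hpM ((CharP.cast_eq_zero_iff (IsLocalRing.ResidueField ↥𝔓.P) 𝔓.p M).mp h)

/-! ### `ζ` lies in the inertia field -/

/-- an `M`-th root of unity of a local domain which reduces to `1` is `1`, if `M` is invertible in
the residue field -/
theorem tgl_eq_one_of_residue {R : Type*} [CommRing R] [IsDomain R] [IsLocalRing R]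
    (hM : ((M : ℕ) : IsLocalRing.ResidueField R) ≠ 0) {u : R} (hu : u ^ M = 1)
    (h1 : IsLocalRing.residue R u = 1) : u = 1 := by
  by_contra hne
  have h2 := geom_sum_mul u M
  rw [hu, sub_self] at h2
  have h3 : ∑ i ∈ Finset.range M, u ^ i = 0 :=
    (mul_eq_zero.mp h2).resolve_right (sub_ne_zero.mpr hne)
  have h4 := congrArg (IsLocalRing.residue R) h3
  rw [map_sum, map_zero] at h4
  simp only [map_pow, h1, one_pow, Finset.sum_const, Finset.card_range, nsmul_eq_mul, mul_one]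
    at h4
  exact hM h4

include hζ in
/-- **`ζ` is fixed by the inertia group** -/
theorem tgl_zeta_mem_K0 (hpM : ¬ 𝔓.p ∣ M) : (ζ : Qb) ∈ 𝔓.K0 := by
  rw [𝔓.mem_K0_iff]
  intro σ hσ
  have hζM : (ζ : Qb) ^ M = 1 := by
    rw [← Units.val_pow_eq_pow_val, hζ.pow_eq_one, Units.val_one]
  have hσζM : (σ (ζ : Qb)) ^ M = 1 := by rw [← map_pow, hζM, map_one]
  have hζP : (ζ : Qb) ∈ 𝔓.P := tg_mem_of_pow_eq_one 𝔓.P (NeZero.ne M) hζM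
  have hσζP : σ (ζ : Qb) ∈ 𝔓.P := tg_mem_of_pow_eq_one 𝔓.P (NeZero.ne M) hσζM
  have hζiP : ((ζ⁻¹ : Qbˣ) : Qb) ∈ 𝔓.P := tg_mem_of_pow_eq_one 𝔓.P (NeZero.ne M) (by
    rw [← Units.val_pow_eq_pow_val, inv_pow, hζ.pow_eq_one, inv_one, Units.val_one])
  -- the difference lies in the maximal ideal
  have hgt := 𝔓.gt_I_sub hσ ((𝔓.mem_P_iff _).mp hζP)
  have hmax : (⟨σ (ζ : Qb), hσζP⟩ - ⟨(ζ : Qb), hζP⟩ : ↥𝔓.P) ∈ IsLocalRing.maximalIdeal ↥𝔓.P := by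
    rw [tb_mem_maximalIdeal_iff]
    exact hgt
  have hres : IsLocalRing.residue ↥𝔓.P ⟨σ (ζ : Qb), hσζP⟩ =
      IsLocalRing.residue ↥𝔓.P ⟨(ζ : Qb), hζP⟩ := by
    rw [← sub_eq_zero, ← map_sub]
    exact (IsLocalRing.residue_eq_zero_iff _).mpr hmax
  -- the quotient `u = σ ζ / ζ`
  set u : ↥𝔓.P := ⟨σ (ζ : Qb), hσζP⟩ * ⟨((ζ⁻¹ : Qbˣ) : Qb), hζiP⟩ with hu
  have hmul : (⟨(ζ : Qb), hζP⟩ * ⟨((ζ⁻¹ : Qbˣ) : Qb), hζiP⟩ : ↥𝔓.P) = 1 := by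
    apply Subtype.ext
    show (ζ : Qb) * ((ζ⁻¹ : Qbˣ) : Qb) = 1
    rw [← Units.val_mul, mul_inv_cancel, Units.val_one]
  have huM : u ^ M = 1 := by
    apply Subtype.ext
    rw [hu, SubmonoidClass.coe_pow, MulMemClass.coe_mul, OneMemClass.coe_one, mul_pow, hσζM,
      one_mul, ← Units.val_pow_eq_pow_val, inv_pow, hζ.pow_eq_one, inv_one, Units.val_one]
  have hu1 : IsLocalRing.residue ↥𝔓.P u = 1 := by
    rw [hu, map_mul, hres, ← map_mul, hmul, map_one]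
  have hu1' := tgl_eq_one_of_residue (tgl_natCast_ne_zero 𝔓 hpM) huM hu1
  have h5 := congrArg (Subtype.val : ↥𝔓.P → Qb) hu1'
  rw [hu, MulMemClass.coe_mul, OneMemClass.coe_one] at h5
  have h6 : σ (ζ : Qb) = σ (ζ : Qb) * ((ζ⁻¹ : Qbˣ) : Qb) * (ζ : Qb) := by
    rw [mul_assoc, ← Units.val_mul, inv_mul_cancel, Units.val_one, mul_one]
  rw [h6]
  show σ (ζ : Qb) * ((ζ⁻¹ : Qbˣ) : Qb) * (ζ : Qb) = (ζ : Qb)
  rw [h5, one_mul]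

variable (H : Subgroup 𝔓.I)

include hζ in
theorem tgl_zeta_mem_tbFix (hpM : ¬ 𝔓.p ∣ M) : (ζ : Qb) ∈ tbFix 𝔓 H :=
  K0_le_tbFix 𝔓 H (tgl_zeta_mem_K0 𝔓 hζ hpM)

/-- `ζ` at level `H` -/
def tglZetaH (hpM : ¬ 𝔓.p ∣ M) : (↥(tbFix 𝔓 H))ˣ where
  val := ⟨(ζ : Qb), tgl_zeta_mem_tbFix 𝔓 hζ H hpM⟩
  inv := ⟨((ζ⁻¹ : Qbˣ) : Qb), by
    have h := (tbFix 𝔓 H).inv_mem (tgl_zeta_mem_tbFix 𝔓 hζ H hpM)
    rwa [← Units.val_inv_eq_inv_val] at h⟩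
  val_inv := by
    apply Subtype.ext
    show (ζ : Qb) * ((ζ⁻¹ : Qbˣ) : Qb) = 1
    rw [← Units.val_mul, mul_inv_cancel, Units.val_one]
  inv_val := by
    apply Subtype.ext
    show ((ζ⁻¹ : Qbˣ) : Qb) * (ζ : Qb) = 1
    rw [← Units.val_mul, inv_mul_cancel, Units.val_one]

theorem tglZetaH_map (hpM : ¬ 𝔓.p ∣ M) :
    Units.map ((algebraMap ↥(tbFix 𝔓 H) Qb : ↥(tbFix 𝔓 H) →+* Qb) : ↥(tbFix 𝔓 H) →* Qb)
      (tglZetaH 𝔓 hζ H hpM) = ζ :=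
  Units.ext rfl

theorem tglZetaH_isPrimitiveRoot (hpM : ¬ 𝔓.p ∣ M) :
    IsPrimitiveRoot (tglZetaH 𝔓 hζ H hpM) M := by
  have hinj : Function.Injective
      (Units.map ((algebraMap ↥(tbFix 𝔓 H) Qb : ↥(tbFix 𝔓 H) →+* Qb) : ↥(tbFix 𝔓 H) →* Qb)) :=
    Units.map_injective (algebraMap ↥(tbFix 𝔓 H) Qb).injective
  refine IsPrimitiveRoot.of_map_of_injective (f := Units.map
    ((algebraMap ↥(tbFix 𝔓 H) Qb : ↥(tbFix 𝔓 H) →+* Qb) : ↥(tbFix 𝔓 H) →* Qb)) ?_ hinj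
  rw [tglZetaH_map]
  exact hζ

/-- the Galois package at level `H` (TG-DESC) -/
def tglGalH (G : TgGalois Qb M ζ) (hpM : ¬ 𝔓.p ∣ M) :
    TgGalois ↥(tbFix 𝔓 H) M (tglZetaH 𝔓 hζ H hpM) :=
  tgpGal (algebraMap ↥(tbFix 𝔓 H) Qb) (tglZetaH_isPrimitiveRoot 𝔓 hζ H hpM)
    ((tglZetaH_map 𝔓 hζ H hpM).symm ▸ G)

/-! ### The reduction of `ζ` -/

/-- the reduction of `ζ` at `𝔓` -/
def tglZetaBar : (IsLocalRing.ResidueField ↥𝔓.P)ˣ :=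
  Units.map ((IsLocalRing.residue ↥𝔓.P : ↥𝔓.P →+* IsLocalRing.ResidueField ↥𝔓.P) :
    ↥𝔓.P →* IsLocalRing.ResidueField ↥𝔓.P) (tgZetaO 𝔓.P hζ.pow_eq_one)

theorem tglZetaBar_eq (hpM : ¬ 𝔓.p ∣ M) :
    tgZetaBar (tbFixO 𝔓 H) (tbFixRes 𝔓 H) (tglZetaH_isPrimitiveRoot 𝔓 hζ H hpM).pow_eq_one =
      tglZetaBar 𝔓 hζ :=
  Units.ext rfl

/-! ### The reduced Galois package and the interface -/

variable (G : TgGalois Qb M ζ)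

/-- **the reduced Galois package at `𝔓`** -/
def tglGalBar (hpM : ¬ 𝔓.p ∣ M) (h3 : 3 ≤ M) :
    TgGalois (IsLocalRing.ResidueField ↥𝔓.P) M (tglZetaBar 𝔓 hζ) :=
  haveI : IsDiscreteValuationRing ↥(tbFixO 𝔓 (⊤ : Subgroup 𝔓.I)) := tbFixO_dvr 𝔓 ⊤
  (tglZetaBar_eq 𝔓 hζ ⊤ hpM) ▸
    tgGalBar (tbFixO 𝔓 ⊤) (tbFixRes 𝔓 ⊤) (tbFixRes_surjective 𝔓 ⊤)
      (tglZetaH_isPrimitiveRoot 𝔓 hζ ⊤ hpM) (tgl_natCast_ne_zero 𝔓 hpM)
      (tglGalH 𝔓 hζ ⊤ G hpM) h3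

theorem tglZetaBar_isPrimitiveRoot (hpM : ¬ 𝔓.p ∣ M) :
    IsPrimitiveRoot (tglZetaBar 𝔓 hζ) M := by
  haveI : IsDiscreteValuationRing ↥(tbFixO 𝔓 (⊤ : Subgroup 𝔓.I)) := tbFixO_dvr 𝔓 ⊤
  rw [← tglZetaBar_eq 𝔓 hζ ⊤ hpM]
  exact tgZetaBar_isPrimitiveRoot (tbFixO 𝔓 ⊤) (tbFixRes 𝔓 ⊤)
    (tglZetaH_isPrimitiveRoot 𝔓 hζ ⊤ hpM) (tgl_natCast_ne_zero 𝔓 hpM)

theorem tgl_jq_mem_oneQ (M : ℕ) [NeZero M] : jq ∈ tgOneQ M := by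
  have h := tgr_jqd_mem_tgOneQ M (d := 1) (one_dvd M)
  rwa [qExpand_one_apply] at h

include G in
/-- **the good-reduction interface at a finite level, for `F₀ = tgOneQ M`** -/
theorem tgl_levelOK (hpM : ¬ 𝔓.p ∣ M) (h6 : 6 ≤ M) [H.FiniteIndex] :
    TglLevelOK 𝔓 (tgOneQ M) (TgOne (IsLocalRing.ResidueField ↥𝔓.P) M (tglZetaBar 𝔓 hζ))
      (tgl_jq_mem_oneQ M) (jqModC_mem_tgOne _ M _) H := by
  haveI : IsDiscreteValuationRing ↥(tbFixO 𝔓 H) := tbFixO_dvr 𝔓 H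
  have hπ := tbFixRes_surjective 𝔓 H
  have hζH := tglZetaH_isPrimitiveRoot 𝔓 hζ H hpM
  have hMk := tgl_natCast_ne_zero 𝔓 hpM
  have hE : tglLevF 𝔓 (tgOneQ M) H = TgOne ↥(tbFix 𝔓 H) M (tglZetaH 𝔓 hζ H hpM) :=
    tg_baseChange_oneQ M ↥(tbFix 𝔓 H) (tglZetaH 𝔓 hζ H hpM) hζH
  have hζb := tglZetaBar_eq 𝔓 hζ H hpM
  have hrange : ∀ f : LaurentSeries ↥(tbFix 𝔓 H), f ∈ tglLevF 𝔓 (tgOneQ M) H →
      TbGauss (tbFixO 𝔓 H) (tbFixRes 𝔓 H) f →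
      tbRhoFun (tbFixO 𝔓 H) (tbFixRes 𝔓 H) f ∈
        TgOne (IsLocalRing.ResidueField ↥𝔓.P) M (tglZetaBar 𝔓 hζ) := by
    intro f hf hG
    rw [hE] at hf
    rw [← hζb]
    exact tgf_range (tbFixO 𝔓 H) (tbFixRes 𝔓 H) hπ hζH hMk (tglGalH 𝔓 hζ H G hpM) h6 f hf hG
  refine
    { nf := ?_
      range := hrange
      surj := ?_
      cart := ?_
      int1 := ?_
      int2 := ?_ }
  · intro f hf hf0
    rw [hE] at hf ⊢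
    exact tgf_nf (tbFixO 𝔓 H) (tbFixRes 𝔓 H) hπ hζH hMk f hf hf0
  · intro t ht
    rw [← hζb] at ht
    rw [hE]
    exact tgf_surj (tbFixO 𝔓 H) (tbFixRes 𝔓 H) hπ hζH hMk t ht
  · intro W hW
    exact tgf_cart' (tbFixO 𝔓 H) (tbFixRes 𝔓 H) hπ hζH hMk (tglGalH 𝔓 hζ H G hpM) h6 _ hE W hW
  · intro f hG hint
    exact tgf_int1' (tbFixO 𝔓 H) (tbFixRes 𝔓 H) hπ hζH hMk (tglGalH 𝔓 hζ H G hpM) h6 _ hE _ hζb
      _ rfl _ rfl hrange f hG hint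
  · intro f hG hint
    exact tgf_int2' (tbFixO 𝔓 H) (tbFixRes 𝔓 H) hπ hζH hMk (tglGalH 𝔓 hζ H G hpM) h6 _ hE _ hζb
      _ rfl _ rfl hrange f hG hint

end Fermat.Agent.T1G
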