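/-
T1G (helper6), (G4) TG-LEVEL part 7: **K1 and the Gauss normal form for `F₀ = tgOneQ M`**, in the
shape consumed by helper7's `Lib/T1G/Kron/K3.lean`:

* `tgl_normal : TgkNormal (tgOneQ M) 𝔓.P`,
* `tgl_K12 : TgkK12 (tgOneQ M) m 𝔓.P` (`m` prime to the residue characteristic),
* `tgl_K3_inertia`, `tgl_K3_frob`: the two K3 statements,

for a place `𝔓 ∤ M` of `ℚ̄`, `6 ≤ M`, from a Galois package `G : TgGalois ℚ̄ M ζ` and the `F̄`-side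
inputs `TgnBarOK ℚ̄ κ M ζ ζ̄` (helper5's `tgn_barOK_place`, with `Gb := tglGalBar 𝔓 hζ G hpM _`).
-/
import Fermat.Agent.Lib.T1G.Level.Inst
import Fermat.Agent.Lib.T1G.Kron.K3
import Fermat.Agent.Lib.T1G.Model.BarOK

set_option autoImplicit false
set_option linter.style.haveILetI false
set_option linter.unusedSectionVars false
set_option synthInstance.maxHeartbeats 400000

open HahnSeries ModularCurve Fermat.Agent.TW Fermat.Agent.S05Lib AlgebraicCurve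
  Fermat.Agent.Curve IntermediateField Fermat.Agent.T1

noncomputable section

namespace Fermat.Agent.T1G

local notation "Qb" => AlgebraicClosure ℚ
local notation "GQ" => (AlgebraicClosure ℚ ≃ₐ[ℚ] AlgebraicClosure ℚ)

variable (𝔓 : FFPlace) {M : ℕ} [NeZero M] {ζ : Qbˣ} (hζ : IsPrimitiveRoot ζ M)
  (G : TgGalois Qb M ζ)

include G in
/-- all finite levels are OK -/
theorem tgl_allLevelsOK (hpM : ¬ 𝔓.p ∣ M) (h6 : 6 ≤ M) :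
    ∀ H : Subgroup 𝔓.I, H.FiniteIndex →
      TglLevelOK 𝔓 (tgOneQ M) (TgOne (IsLocalRing.ResidueField ↥𝔓.P) M (tglZetaBar 𝔓 hζ))
        (tgl_jq_mem_oneQ M) (jqModC_mem_tgOne _ M _) H :=
  fun H hH => by
    haveI := hH
    exact tgl_levelOK 𝔓 hζ H G hpM h6

include hζ G in
/-- **the Gauss normal form**, in the shape consumed by K3 -/
theorem tgl_normal (hpM : ¬ 𝔓.p ∣ M) (h6 : 6 ≤ M) : TgkNormal (tgOneQ M) 𝔓.P := by
  intro y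
  obtain ⟨c, a, b, hc, -, -, -, -, ha, hb, hrel⟩ :=
    tgl_normalForm (tgl_allLevelsOK 𝔓 hζ G hpM h6) (y : ↥(laurentBaseChange Qb (tgOneQ M)))
      y.ne_zero
  refine ⟨c⁻¹, inv_ne_zero hc, a, b, ha, hb, ?_⟩
  show algebraMap Qb (LaurentSeries Qb) c⁻¹
      * ((y : ↥(laurentBaseChange Qb (tgOneQ M))) : LaurentSeries Qb) * coeffMap 𝔓.P.subtype b
    = coeffMap 𝔓.P.subtype a
  rw [mul_assoc, hrel, ← mul_assoc, ← map_mul, inv_mul_cancel₀ hc, map_one, one_mul]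

/-- transport of the `F̄`-side inputs to `laurentBaseChange ℚ̄ (tgOneQ M)` -/
theorem tgl_K1_of_eq
    (hbar : TgnBarOK Qb (IsLocalRing.ResidueField ↥𝔓.P) M ζ (tglZetaBar 𝔓 hζ))
    (E : IntermediateField Qb (LaurentSeries Qb)) (hE : E = TgOne Qb M ζ)
    (jE : ↥E) (hjE : (jE : LaurentSeries Qb) = jqModC Qb) :
    IsFunctionFieldGen Qb ↥E jE ∧
      Module.finrank ↥(Qb⟮jE⟯) ↥E =
        Module.finrank ↥((IsLocalRing.ResidueField ↥𝔓.P)⟮tgOneJ (IsLocalRing.ResidueField ↥𝔓.P) M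
          (tglZetaBar 𝔓 hζ)⟯) ↥(TgOne (IsLocalRing.ResidueField ↥𝔓.P) M (tglZetaBar 𝔓 hζ)) ∧
      CurveP.genusR Qb ↥E ≤ CurveP.genusR (IsLocalRing.ResidueField ↥𝔓.P)
        ↥(TgOne (IsLocalRing.ResidueField ↥𝔓.P) M (tglZetaBar 𝔓 hζ)) := by
  subst hE
  have h1 : jE = tgOneJ Qb M ζ := Subtype.ext hjE
  subst h1
  exact ⟨hbar.gen, hbar.deg, hbar.genus⟩

include G in
/-- **K1 + K2** for `F₀ = tgOneQ M` -/
theorem tgl_K12 (hpM : ¬ 𝔓.p ∣ M) (h6 : 6 ≤ M)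
    (hbar : TgnBarOK Qb (IsLocalRing.ResidueField ↥𝔓.P) M ζ (tglZetaBar 𝔓 hζ))
    {m : ℕ} (hm : Nat.Coprime m 𝔓.p) (hm0 : m ≠ 0) : TgkK12 (tgOneQ M) m 𝔓.P := by
  intro Y hY hrep
  obtain ⟨a, b, hab, hb, hrel⟩ := hrep
  have hOK := tgl_allLevelsOK 𝔓 hζ G hpM h6
  obtain ⟨hgen, hdeg, hgenus⟩ := tgl_K1_of_eq 𝔓 hζ hbar
    (laurentBaseChange Qb (tgOneQ M)) (tg_baseChange_oneQ M Qb ζ hζ)
    (tglJ (tgOneQ M) (tgl_jq_mem_oneQ M)) rfl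
  haveI : Algebra.IsSeparable
      ↥((IsLocalRing.ResidueField ↥𝔓.P)⟮tglBarJ 𝔓
        (TgOne (IsLocalRing.ResidueField ↥𝔓.P) M (tglZetaBar 𝔓 hζ)) (jqModC_mem_tgOne _ M _)⟯)
      ↥(TgOne (IsLocalRing.ResidueField ↥𝔓.P) M (tglZetaBar 𝔓 hζ)) := hbar.sep
  obtain ⟨g, hg⟩ := tgl_K1 hOK hm hgen hbar.genb hdeg hgenus
    (y := (Y : ↥(laurentBaseChange Qb (tgOneQ M)))) (fun v => hY v) hb hab hrel
  have hg0 : g ≠ 0 := by
    rintro rfl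
    rw [zero_pow hm0] at hg
    exact Y.ne_zero hg.symm
  refine ⟨Units.mk0 g hg0, ?_⟩
  apply Units.ext
  rw [Units.val_pow_eq_pow_val, Units.val_mk0]
  exact hg.symm

include G in
/-- **K3 (i)**: inertia at `𝔓 ∤ M` acts trivially on the Kummer group of `Γ₁(M)` modulo `m`-th
powers (`m` prime to the residue characteristic) -/
theorem tgl_K3_inertia (hpM : ¬ 𝔓.p ∣ M) (h6 : 6 ≤ M)
    (hbar : TgnBarOK Qb (IsLocalRing.ResidueField ↥𝔓.P) M ζ (tglZetaBar 𝔓 hζ))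
    {m : ℕ} (hm : Nat.Coprime m 𝔓.p) (hm0 : m ≠ 0) {σ : GQ}
    (hσ : σ ∈ 𝔓.P.inertiaSubgroupIn ℚ) {y : (↥(laurentBaseChange Qb (tgOneQ M)))ˣ}
    (hy : y ∈ tgWsub Qb (tgOneQ M) m) :
    ∃ t : (↥(laurentBaseChange Qb (tgOneQ M)))ˣ, tgSig (tgOneQ M) σ y = y * t ^ m :=
  tgk_K3_inertia (tgl_K12 𝔓 hζ G hpM h6 hbar hm hm0) (tgl_normal 𝔓 hζ G hpM h6) hm0 hσ hy

instance tglNeZeroP (𝔓 : FFPlace) : NeZero 𝔓.p := ⟨𝔓.hp.ne_zero⟩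

include G in
/-- **K3 (ii)**: the Eichler–Shimura relation on functions with diamond operator, for a Frobenius
element at `𝔓 ∤ M` -/
theorem tgl_K3_frob (hpM : ¬ 𝔓.p ∣ M) (h6 : 6 ≤ M)
    (hbar : TgnBarOK Qb (IsLocalRing.ResidueField ↥𝔓.P) M ζ (tglZetaBar 𝔓 hζ))
    {m : ℕ} (hm : Nat.Coprime m 𝔓.p) (hm0 : m ≠ 0) {σ : GQ} (hσ : 𝔓.P.IsFrobeniusAt σ 𝔓.p)
    (Tf Df : (↥(laurentBaseChange Qb (tgOneQ M)))ˣ → (↥(laurentBaseChange Qb (tgOneQ M)))ˣ)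
    (hTD : ∀ ξ : Qbˣ, IsPrimitiveRoot (ξ : Qb) 𝔓.p →
      ∀ z : (↥(laurentBaseChange Qb (tgOneQ M)))ˣ,
      qExpand Qb 𝔓.p (((Tf z : (↥(laurentBaseChange Qb (tgOneQ M)))ˣ) :
          ↥(laurentBaseChange Qb (tgOneQ M))) : LaurentSeries Qb)
        = qExpand Qb (𝔓.p * 𝔓.p) (((Df z : (↥(laurentBaseChange Qb (tgOneQ M)))ˣ) :
            ↥(laurentBaseChange Qb (tgOneQ M))) : LaurentSeries Qb)
          * ∏ b ∈ Finset.range 𝔓.p, tkrTw (ξ ^ b)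
            (((z : (↥(laurentBaseChange Qb (tgOneQ M)))ˣ) : ↥(laurentBaseChange Qb (tgOneQ M))) :
              LaurentSeries Qb))
    (hDσ : ∀ z : (↥(laurentBaseChange Qb (tgOneQ M)))ˣ,
      Df (tgSig (tgOneQ M) σ z) = tgSig (tgOneQ M) σ (Df z))
    {y : (↥(laurentBaseChange Qb (tgOneQ M)))ˣ} (hy : y ∈ tgWsub Qb (tgOneQ M) m)
    (hT : Tf (tgSig (tgOneQ M) σ y) ∈ tgWsub Qb (tgOneQ M) m)
    (hD : Df y ∈ tgWsub Qb (tgOneQ M) m) :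
    ∃ t : (↥(laurentBaseChange Qb (tgOneQ M)))ˣ,
      tgSig (tgOneQ M) σ (tgSig (tgOneQ M) σ y) * Df y ^ 𝔓.p =
        Tf (tgSig (tgOneQ M) σ y) * t ^ m := by
  exact tgk_K3_frob (tgl_K12 𝔓 hζ G hpM h6 hbar hm hm0) (tgl_normal 𝔓 hζ G hpM h6) hm0 𝔓.hp 𝔓.hP
    hσ Tf Df hTD hDσ hy hT hD

end Fermat.Agent.T1G
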