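/-
T1G (helper6), (G4) TG-LEVEL part 8: **the two K3 statements for `Γ₁(M)` from the analytic inputs
only**: a Galois package `G : TgGalois ℚ̄ M ζ` over `ℚ̄` and the cover data
`C : TgcCover G.ρ (tgJ ℚ̄ M ζ)` (helper1's `tgGalois_an` + helper5's `tgxCoverFull`), for a place
`𝔓 ∤ M`, `6 ≤ M`, `4 ∣ M ∨ 9 ∣ M`.
-/
import Fermat.Agent.Lib.T1G.Level.K12
import Fermat.Agent.Lib.T1G.Model.BarOKPlace

set_option autoImplicit false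
set_option linter.style.haveILetI false
set_option linter.unusedSectionVars false
set_option synthInstance.maxHeartbeats 400000

open HahnSeries ModularCurve Fermat.Agent.TW Fermat.Agent.S05Lib AlgebraicCurve
  Fermat.Agent.Curve IntermediateField Fermat.Agent.T1

noncomputable section

namespace Fermat.Agent.T1G

local notation "Qb" => AlgebraicClosure ℚ
local notation "GQ" => (AlgebraicClosure ℚ ≃ₐ[ℚ] AlgebraicClosure ℚ)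

variable (𝔓 : FFPlace) {M : ℕ} [NeZero M] {ζ : Qbˣ} (hζ : IsPrimitiveRoot ζ M)
  (G : TgGalois Qb M ζ) (C : TgcCover G.ρ (tgJ Qb M ζ))

include hζ C in
/-- **the `F̄`-side inputs of K1 at a place `𝔓 ∤ M`** -/
theorem tgl_barOK (hpM : ¬ 𝔓.p ∣ M) (h6 : 6 ≤ M) (h49 : 4 ∣ M ∨ 9 ∣ M) :
    TgnBarOK Qb (IsLocalRing.ResidueField ↥𝔓.P) M ζ (tglZetaBar 𝔓 hζ) :=
  tgn_barOK_place 𝔓 G C (tglGalBar 𝔓 hζ G hpM (by omega)) hζ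
    (tglZetaBar_isPrimitiveRoot 𝔓 hζ hpM) h6 h49 hpM

include hζ C in
/-- **Gauss unit with reduction `1` in the Kummer group ⟹ `m`-th power** -/
theorem tgl_K12_final (hpM : ¬ 𝔓.p ∣ M) (h6 : 6 ≤ M) (h49 : 4 ∣ M ∨ 9 ∣ M)
    {m : ℕ} (hm : Nat.Coprime m 𝔓.p) (hm0 : m ≠ 0) : TgkK12 (tgOneQ M) m 𝔓.P :=
  tgl_K12 𝔓 hζ G hpM h6 (tgl_barOK 𝔓 hζ G C hpM h6 h49) hm hm0

include hζ C in
/-- **K3 (i)** for `Γ₁(M)` -/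
theorem tgl_K3_inertia_final (hpM : ¬ 𝔓.p ∣ M) (h6 : 6 ≤ M) (h49 : 4 ∣ M ∨ 9 ∣ M)
    {m : ℕ} (hm : Nat.Coprime m 𝔓.p) (hm0 : m ≠ 0) {σ : GQ}
    (hσ : σ ∈ 𝔓.P.inertiaSubgroupIn ℚ) {y : (↥(laurentBaseChange Qb (tgOneQ M)))ˣ}
    (hy : y ∈ tgWsub Qb (tgOneQ M) m) :
    ∃ t : (↥(laurentBaseChange Qb (tgOneQ M)))ˣ, tgSig (tgOneQ M) σ y = y * t ^ m :=
  tgl_K3_inertia 𝔓 hζ G hpM h6 (tgl_barOK 𝔓 hζ G C hpM h6 h49) hm hm0 hσ hy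

include hζ C in
/-- **K3 (ii)** for `Γ₁(M)` -/
theorem tgl_K3_frob_final (hpM : ¬ 𝔓.p ∣ M) (h6 : 6 ≤ M) (h49 : 4 ∣ M ∨ 9 ∣ M)
    {m : ℕ} (hm : Nat.Coprime m 𝔓.p) (hm0 : m ≠ 0) {σ : GQ} (hσ : 𝔓.P.IsFrobeniusAt σ 𝔓.p)
    (Tf Df : (↥(laurentBaseChange Qb (tgOneQ M)))ˣ → (↥(laurentBaseChange Qb (tgOneQ M)))ˣ)
    (hTD : ∀ ξ : Qbˣ, IsPrimitiveRoot (ξ : Qb) 𝔓.p →
      ∀ z : (↥(laurentBaseChange Qb (tgOneQ M)))ˣ,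
      qExpand Qb 𝔓.p (((Tf z : (↥(laurentBaseChange Qb (tgOneQ M)))ˣ) :
          ↥(laurentBaseChange Qb (tgOneQ M))) : LaurentSeries Qb)
        = qExpand Qb (𝔓.p * 𝔓.p) (((Df z : (↥(laurentBaseChange Qb (tgOneQ M)))ˣ) :
            ↥(laurentBaseChange Qb (tgOneQ M))) : LaurentSeries Qb)
          * ∏ b ∈ Finset.range 𝔓.p, tkrTw (ξ ^ b)
            (((z : (↥(laurentBaseChange Qb (tgOneQ M)))ˣ) : ↥(laurentBaseChange Qb (tgOneQ M))) :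
              LaurentSeries Qb))
    (hDσ : ∀ z : (↥(laurentBaseChange Qb (tgOneQ M)))ˣ,
      Df (tgSig (tgOneQ M) σ z) = tgSig (tgOneQ M) σ (Df z))
    {y : (↥(laurentBaseChange Qb (tgOneQ M)))ˣ} (hy : y ∈ tgWsub Qb (tgOneQ M) m)
    (hT : Tf (tgSig (tgOneQ M) σ y) ∈ tgWsub Qb (tgOneQ M) m)
    (hD : Df y ∈ tgWsub Qb (tgOneQ M) m) :
    ∃ t : (↥(laurentBaseChange Qb (tgOneQ M)))ˣ,
      tgSig (tgOneQ M) σ (tgSig (tgOneQ M) σ y) * Df y ^ 𝔓.p =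
        Tf (tgSig (tgOneQ M) σ y) * t ^ m :=
  tgl_K3_frob 𝔓 hζ G hpM h6 (tgl_barOK 𝔓 hζ G C hpM h6 h49) hm hm0 hσ Tf Df hTD hDσ hy hT hD

end Fermat.Agent.T1G
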