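/-
T1G (helper6), (G4) TG-LEVEL part 9 = (L5) of helper1's plan: **K1/K2/K3 for `Γ₁(M)` at a place,
UNCONDITIONALLY** (`6 ≤ M`, `4 ∣ M ∨ 9 ∣ M`, `A` a valuation subring of `ℚ̄` over a prime `l ∤ M`):
the analytic inputs are helper1's `tgGalois_an ℚ̄ M` and helper5's `tgxCoverFull`.
-/
import Fermat.Agent.Lib.T1G.Level.Final
import Fermat.Agent.Lib.T1G.GMod.FullGalois
import Fermat.Agent.Lib.T1G.GMod.GenusFull

set_option autoImplicit false
set_option linter.style.haveILetI false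
set_option linter.unusedSectionVars false
set_option synthInstance.maxHeartbeats 400000

open HahnSeries ModularCurve Fermat.Agent.TW Fermat.Agent.S05Lib AlgebraicCurve
  Fermat.Agent.Curve IntermediateField Fermat.Agent.T1 Fermat.Agent.S24Lib

noncomputable section

namespace Fermat.Agent.T1G

local notation "Qb" => AlgebraicClosure ℚ
local notation "GQ" => (AlgebraicClosure ℚ ≃ₐ[ℚ] AlgebraicClosure ℚ)

attribute [local instance] KMod.charZero_k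

variable (M : ℕ) [NeZero M]

/-- the cover data of the full level field over `ℚ̄`, from the analytic model -/
def tglCoverAn : TgcCover (tgGalois_an Qb M).ρ (tgJ Qb M (tgxZeta Qb M)) :=
  tgxCoverFull (tgGalois_an Qb M) (tgxFull Qb M) (tgxFullIso Qb M) (tgxFullRho_iso Qb M)
    (tgxFullIso_jL Qb M)

variable {M} (A : ValuationSubring Qb) {l : ℕ} (hl : l.Prime) (hA : A.LiesOverPrime l)

include hl hA in
/-- **the Gauss normal form** for `Γ₁(M)` at a place over `l ∤ M` -/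
theorem tgl_normal_an (hlM : ¬ l ∣ M) (h6 : 6 ≤ M) : TgkNormal (tgOneQ M) A :=
  tgl_normal (⟨A, l, hl, hA⟩ : FFPlace) (tgxZeta_isPrimitiveRoot Qb M) (tgGalois_an Qb M) hlM h6

include hl hA in
/-- **K1 + K2** for `Γ₁(M)` at a place over `l ∤ M` -/
theorem tgl_K12_an (hlM : ¬ l ∣ M) (h6 : 6 ≤ M) (h49 : 4 ∣ M ∨ 9 ∣ M) {m : ℕ}
    (hm : Nat.Coprime m l) (hm0 : m ≠ 0) : TgkK12 (tgOneQ M) m A :=
  tgl_K12_final (⟨A, l, hl, hA⟩ : FFPlace) (tgxZeta_isPrimitiveRoot Qb M) (tgGalois_an Qb M)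
    (tglCoverAn M) hlM h6 h49 hm hm0

include hl hA in
/-- **K3 (i)** for `Γ₁(M)`: inertia at a place over `l ∤ M` acts trivially on the Kummer group
modulo `m`-th powers, `m` prime to `l` -/
theorem tgl_K3_inertia_an (hlM : ¬ l ∣ M) (h6 : 6 ≤ M) (h49 : 4 ∣ M ∨ 9 ∣ M) {m : ℕ}
    (hm : Nat.Coprime m l) (hm0 : m ≠ 0) {σ : GQ} (hσ : σ ∈ A.inertiaSubgroupIn ℚ)
    {y : (↥(laurentBaseChange Qb (tgOneQ M)))ˣ} (hy : y ∈ tgWsub Qb (tgOneQ M) m) :
    ∃ t : (↥(laurentBaseChange Qb (tgOneQ M)))ˣ, tgSig (tgOneQ M) σ y = y * t ^ m :=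
  tgk_K3_inertia (tgl_K12_an A hl hA hlM h6 h49 hm hm0) (tgl_normal_an A hl hA hlM h6) hm0 hσ hy

include hl hA in
/-- **K3 (ii)** for `Γ₁(M)`: the Eichler–Shimura relation on functions with diamond operator -/
theorem tgl_K3_frob_an [NeZero l] (hlM : ¬ l ∣ M) (h6 : 6 ≤ M) (h49 : 4 ∣ M ∨ 9 ∣ M) {m : ℕ}
    (hm : Nat.Coprime m l) (hm0 : m ≠ 0) {σ : GQ} (hσ : A.IsFrobeniusAt σ l)
    (Tf Df : (↥(laurentBaseChange Qb (tgOneQ M)))ˣ → (↥(laurentBaseChange Qb (tgOneQ M)))ˣ)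
    (hTD : ∀ ξ : Qbˣ, IsPrimitiveRoot (ξ : Qb) l →
      ∀ z : (↥(laurentBaseChange Qb (tgOneQ M)))ˣ,
      qExpand Qb l (((Tf z : (↥(laurentBaseChange Qb (tgOneQ M)))ˣ) :
          ↥(laurentBaseChange Qb (tgOneQ M))) : LaurentSeries Qb)
        = qExpand Qb (l * l) (((Df z : (↥(laurentBaseChange Qb (tgOneQ M)))ˣ) :
            ↥(laurentBaseChange Qb (tgOneQ M))) : LaurentSeries Qb)
          * ∏ b ∈ Finset.range l, tkrTw (ξ ^ b)
            (((z : (↥(laurentBaseChange Qb (tgOneQ M)))ˣ) : ↥(laurentBaseChange Qb (tgOneQ M))) :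
              LaurentSeries Qb))
    (hDσ : ∀ z : (↥(laurentBaseChange Qb (tgOneQ M)))ˣ,
      Df (tgSig (tgOneQ M) σ z) = tgSig (tgOneQ M) σ (Df z))
    {y : (↥(laurentBaseChange Qb (tgOneQ M)))ˣ} (hy : y ∈ tgWsub Qb (tgOneQ M) m)
    (hT : Tf (tgSig (tgOneQ M) σ y) ∈ tgWsub Qb (tgOneQ M) m)
    (hD : Df y ∈ tgWsub Qb (tgOneQ M) m) :
    ∃ t : (↥(laurentBaseChange Qb (tgOneQ M)))ˣ,
      tgSig (tgOneQ M) σ (tgSig (tgOneQ M) σ y) * Df y ^ l =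
        Tf (tgSig (tgOneQ M) σ y) * t ^ m :=
  tgk_K3_frob (tgl_K12_an A hl hA hlM h6 h49 hm hm0) (tgl_normal_an A hl hA hlM h6) hm0 hl hA
    hσ Tf Df hTD hDσ hy hT hD

end Fermat.Agent.T1G
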